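import Mathlib
import Fermat.Prelude.Def_ModularCurve_ReductionModL

/-!
# S18: wiring from the Kummer injectivity statement `(Inj')`

`Wiring.result_of` proves the statement of S18 from two inputs:

* `Inj N A ℓ`   — `(Inj')`: two integral `q`-series `U, W` of the function field with the same
  nonzero reduction and `m ∣ div (U / W)`, `ℓ ∤ m`, have `U / W` an `m`-th power up to divisor;
* `Const N A`   — a function of the reduced function field without zeros and poles is constant.

Everything else (closure induction on `PrincipalGeneratedByIntegral`, lifting of functions of the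
special fibre, `m`-th roots in the residue field, divisor bookkeeping) is done here.
-/

set_option autoImplicit false
set_option linter.unusedSectionVars false
set_option synthInstance.maxHeartbeats 400000
set_option maxHeartbeats 1000000

noncomputable section

namespace Fermat.Agent.S18.Wiring

open ModularCurve AlgebraicCurve HahnSeries IntermediateField

variable (N : ℕ) [NeZero N] (A : ValuationSubring (AlgebraicClosure ℚ))

/-- `(Inj')` at a fixed exponent `m`: two integral `q`-series `U, W` of the function field with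
the same nonzero reduction and `m ∣ div (U / W)` have `div (U / W) = m • div H`. -/
def InjAt (m : ℕ) : Prop :=
  ∀ (U W : LaurentSeries A)
    (hU : coeffMap A.subtype U ∈ modularFunctionFieldBar N)
    (hW : coeffMap A.subtype W ∈ modularFunctionFieldBar N),
    coeffMap (IsLocalRing.residue A) U ∈
      modularFunctionFieldFullC (IsLocalRing.ResidueField A) N →
    coeffMap (IsLocalRing.residue A) U = coeffMap (IsLocalRing.residue A) W →
    coeffMap (IsLocalRing.residue A) U ≠ 0 →
    (∀ P : Place (AlgebraicClosure ℚ) (modularFunctionFieldBar N),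
      (m : ℤ) ∣ P.ord (⟨coeffMap A.subtype U, hU⟩ : modularFunctionFieldBar N) -
        P.ord (⟨coeffMap A.subtype W, hW⟩ : modularFunctionFieldBar N)) →
    ∃ H : modularFunctionFieldBar N, H ≠ 0 ∧
      ∀ P : Place (AlgebraicClosure ℚ) (modularFunctionFieldBar N),
        P.ord (⟨coeffMap A.subtype U, hU⟩ : modularFunctionFieldBar N) -
          P.ord (⟨coeffMap A.subtype W, hW⟩ : modularFunctionFieldBar N) = m * P.ord H

/-- `(Inj')`: the Kummer injectivity statement on the generic fibre, all exponents prime to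
`ℓ`. -/
def Inj (ℓ : ℕ) : Prop :=
  ∀ m : ℕ, ¬ ℓ ∣ m → InjAt N A m

/-- `(Inj')` for prime exponents `p ≠ ℓ` only; this suffices for S18 (`result_of_prime`). -/
def InjPrime (ℓ : ℕ) : Prop :=
  ∀ p : ℕ, p.Prime → p ≠ ℓ → InjAt N A p

theorem Inj.injPrime {ℓ : ℕ} (hℓ : ℓ ≠ 1) (h : Inj N A ℓ) : InjPrime N A ℓ := by
  intro p hp hpℓ
  refine h p fun hdvd => ?_
  rcases (Nat.dvd_prime hp).mp hdvd with h1 | h1
  · exact hℓ h1
  · exact hpℓ h1.symm

/-- Functions of the special fibre without zeros and poles are constant. -/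
def Const : Prop :=
  ∀ c : modularFunctionFieldFullC (IsLocalRing.ResidueField A) N, c ≠ 0 →
    (∀ Q : Place (IsLocalRing.ResidueField A)
        (modularFunctionFieldFullC (IsLocalRing.ResidueField A) N), Q.ord c = 0) →
    ∃ a : IsLocalRing.ResidueField A,
      c = algebraMap (IsLocalRing.ResidueField A)
        (modularFunctionFieldFullC (IsLocalRing.ResidueField A) N) a

/-! ### Generalities on places -/

theorem ord_algebraMap {K F : Type*} [Field K] [Field F] [Algebra K F] (P : Place K F) (a : K)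
    (ha : a ≠ 0) : P.ord (algebraMap K F a) = 0 := by
  have h1 : algebraMap K F a ∈ P.toValuationSubring := P.algebraMap_mem' a
  have h2 : algebraMap K F a⁻¹ ∈ P.toValuationSubring := P.algebraMap_mem' a⁻¹
  have hu : IsUnit (⟨algebraMap K F a, h1⟩ : P.toValuationSubring) := by
    refine IsUnit.of_mul_eq_one (⟨algebraMap K F a⁻¹, h2⟩ : P.toValuationSubring) ?_
    apply Subtype.ext
    change algebraMap K F a * algebraMap K F a⁻¹ = 1
    rw [← map_mul, mul_inv_cancel₀ ha, map_one]
  exact P.ord_coe_unit hu.unit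


/-! ### Integral series and lifting of functions of the special fibre -/

/-- Integral `q`-series lying in the function field, with reduction in the reduced function
field. -/
def intSeries : Subring (LaurentSeries A) where
  carrier := {Y | coeffMap A.subtype Y ∈ modularFunctionFieldBar N ∧
    coeffMap (IsLocalRing.residue A) Y ∈ modularFunctionFieldFullC (IsLocalRing.ResidueField A) N}
  mul_mem' := by
    rintro x y ⟨hx, hx'⟩ ⟨hy, hy'⟩
    exact ⟨by rw [map_mul]; exact mul_mem hx hy, by rw [map_mul]; exact mul_mem hx' hy'⟩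
  one_mem' := ⟨by rw [map_one]; exact one_mem _, by rw [map_one]; exact one_mem _⟩
  add_mem' := by
    rintro x y ⟨hx, hx'⟩ ⟨hy, hy'⟩
    exact ⟨by rw [map_add]; exact add_mem hx hy, by rw [map_add]; exact add_mem hx' hy'⟩
  zero_mem' := ⟨by rw [map_zero]; exact zero_mem _, by rw [map_zero]; exact zero_mem _⟩
  neg_mem' := by
    rintro x ⟨hx, hx'⟩
    exact ⟨by rw [map_neg]; exact neg_mem hx, by rw [map_neg]; exact neg_mem hx'⟩

theorem mem_intSeries {Y : LaurentSeries A} : Y ∈ intSeries N A ↔
    coeffMap A.subtype Y ∈ modularFunctionFieldBar N ∧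
      coeffMap (IsLocalRing.residue A) Y ∈
        modularFunctionFieldFullC (IsLocalRing.ResidueField A) N := Iff.rfl

theorem coeffMap_C {R S : Type*} [CommRing R] [CommRing S] (f : R →+* S) (a : R) :
    coeffMap f (HahnSeries.C a : LaurentSeries R) = HahnSeries.C (f a) := by
  rw [HahnSeries.C_apply, coeffMap_single, HahnSeries.C_apply]

theorem C_eq_algebraMap {K : Type*} [Field K] (a : K) :
    (HahnSeries.C a : LaurentSeries K) = algebraMap K (LaurentSeries K) a := by
  rw [algebraMap_laurentSeries_eq_single, HahnSeries.C_apply]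

theorem C_mem_intSeries (a : A) : (HahnSeries.C a : LaurentSeries A) ∈ intSeries N A := by
  refine ⟨?_, ?_⟩
  · rw [coeffMap_C, C_eq_algebraMap]
    exact IntermediateField.algebraMap_mem _ _
  · rw [coeffMap_C, C_eq_algebraMap]
    exact IntermediateField.algebraMap_mem _ _

theorem gen_mem_intSeries {d : ℕ} [NeZero d] (hd : d ∣ N) :
    qExpand A d (jqModC A) ∈ intSeries N A := by
  refine ⟨?_, ?_⟩
  · rw [coeffMap_qExpand, coeffMap_jqModC]
    have h := coeffEmb_mem_laurentBaseChange (AlgebraicClosure ℚ) (jqd_mem_full N hd)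
    rwa [coeffEmb, coeffMap_qExpand, ← jqModC_rat, coeffMap_jqModC] at h
  · rw [coeffMap_qExpand, coeffMap_jqModC]
    exact jqModCd_mem_full _ N hd

/-- The fractions of reductions of integral series form a subfield of `k((q))`. -/
def fracRed : Subfield (LaurentSeries (IsLocalRing.ResidueField A)) where
  carrier := {x | ∃ Y₁ ∈ intSeries N A, ∃ Y₂ ∈ intSeries N A,
    coeffMap (IsLocalRing.residue A) Y₂ ≠ 0 ∧
      x * coeffMap (IsLocalRing.residue A) Y₂ = coeffMap (IsLocalRing.residue A) Y₁}
  mul_mem' := by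
    rintro x y ⟨a, ha, b, hb, hb0, h⟩ ⟨a', ha', b', hb', hb0', h'⟩
    refine ⟨a * a', mul_mem ha ha', b * b', mul_mem hb hb', ?_, ?_⟩
    · rw [map_mul]; exact mul_ne_zero hb0 hb0'
    · rw [map_mul, map_mul, ← h, ← h']; ring
  one_mem' := ⟨1, one_mem _, 1, one_mem _, by rw [map_one]; exact one_ne_zero,
    by rw [map_one, mul_one]⟩
  add_mem' := by
    rintro x y ⟨a, ha, b, hb, hb0, h⟩ ⟨a', ha', b', hb', hb0', h'⟩
    refine ⟨a * b' + a' * b, add_mem (mul_mem ha hb') (mul_mem ha' hb), b * b', mul_mem hb hb',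
      ?_, ?_⟩
    · rw [map_mul]; exact mul_ne_zero hb0 hb0'
    · rw [map_add, map_mul, map_mul, map_mul, ← h, ← h']; ring
  zero_mem' := ⟨0, zero_mem _, 1, one_mem _, by rw [map_one]; exact one_ne_zero,
    by rw [map_zero, zero_mul]⟩
  neg_mem' := by
    rintro x ⟨a, ha, b, hb, hb0, h⟩
    exact ⟨-a, neg_mem ha, b, hb, hb0, by rw [map_neg, ← h, neg_mul]⟩
  inv_mem' := by
    rintro x ⟨a, ha, b, hb, hb0, h⟩
    by_cases hx : x = 0
    · exact ⟨0, zero_mem _, 1, one_mem _, by rw [map_one]; exact one_ne_zero,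
        by rw [hx, inv_zero, map_zero, zero_mul]⟩
    · have ha0 : coeffMap (IsLocalRing.residue A) a ≠ 0 := by
        rw [← h]; exact mul_ne_zero hx hb0
      exact ⟨b, hb, a, ha, ha0, by rw [← h, ← mul_assoc, inv_mul_cancel₀ hx, one_mul]⟩

/-- Every function of the special fibre is a quotient of reductions of integral series. -/
theorem exists_lift (φ : LaurentSeries (IsLocalRing.ResidueField A))
    (hφ : φ ∈ modularFunctionFieldFullC (IsLocalRing.ResidueField A) N) :
    ∃ Y₁ ∈ intSeries N A, ∃ Y₂ ∈ intSeries N A,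
      coeffMap (IsLocalRing.residue A) Y₂ ≠ 0 ∧
        φ * coeffMap (IsLocalRing.residue A) Y₂ = coeffMap (IsLocalRing.residue A) Y₁ := by
  have halg : ∀ a : IsLocalRing.ResidueField A,
      algebraMap (IsLocalRing.ResidueField A) (LaurentSeries (IsLocalRing.ResidueField A)) a ∈
        fracRed N A := by
    intro a
    obtain ⟨a', rfl⟩ := IsLocalRing.residue_surjective a
    refine ⟨HahnSeries.C a', C_mem_intSeries N A a', 1, one_mem _, ?_, ?_⟩
    · rw [map_one]; exact one_ne_zero
    · rw [map_one, mul_one, coeffMap_C, C_eq_algebraMap]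
  have hle : modularFunctionFieldFullC (IsLocalRing.ResidueField A) N ≤
      (fracRed N A).toIntermediateField halg := by
    rw [modularFunctionFieldFullC, IntermediateField.adjoin_le_iff]
    rintro x ⟨d, hd0, hd, rfl⟩
    refine ⟨qExpand A d (jqModC A), gen_mem_intSeries N A hd, 1, one_mem _, ?_, ?_⟩
    · rw [map_one]; exact one_ne_zero
    · rw [map_one, mul_one, coeffMap_qExpand, coeffMap_jqModC]
  exact hle hφ


/-! ### Elements of the generic fibre attached to integral series -/

/-- The function attached to an integral series. -/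
def toBar (Y : intSeries N A) : modularFunctionFieldBar N := ⟨coeffMap A.subtype Y.1, Y.2.1⟩

/-- The reduction of an integral series, as a function of the special fibre. -/
def toRed (Y : intSeries N A) : modularFunctionFieldFullC (IsLocalRing.ResidueField A) N :=
  ⟨coeffMap (IsLocalRing.residue A) Y.1, Y.2.2⟩

theorem toBar_mul (Y Z : intSeries N A) : toBar N A (Y * Z) = toBar N A Y * toBar N A Z :=
  Subtype.ext (map_mul _ _ _)

theorem toRed_mul (Y Z : intSeries N A) : toRed N A (Y * Z) = toRed N A Y * toRed N A Z :=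
  Subtype.ext (map_mul _ _ _)

theorem toBar_one : toBar N A 1 = 1 := Subtype.ext (map_one _)

theorem toRed_one : toRed N A 1 = 1 := Subtype.ext (map_one _)

theorem toBar_pow (Y : intSeries N A) (n : ℕ) : toBar N A (Y ^ n) = toBar N A Y ^ n :=
  Subtype.ext (map_pow _ _ _)

theorem toRed_pow (Y : intSeries N A) (n : ℕ) : toRed N A (Y ^ n) = toRed N A Y ^ n :=
  Subtype.ext (map_pow _ _ _)

theorem coeffMap_subtype_injective : Function.Injective (coeffMap A.subtype) := by
  intro a b h
  ext n
  have := congrArg (fun x => x.coeff n) h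
  simpa using this

theorem toBar_ne_zero {Y : intSeries N A} (h : toRed N A Y ≠ 0) : toBar N A Y ≠ 0 := by
  intro h0
  apply h
  have h1 : coeffMap A.subtype Y.1 = 0 := congrArg Subtype.val h0
  have h2 : Y.1 = 0 := coeffMap_subtype_injective A (by rw [h1, map_zero])
  apply Subtype.ext
  change coeffMap (IsLocalRing.residue A) Y.1 = 0
  rw [h2, map_zero]

/-- A divisor of the generic fibre which is `div U - div W` for integral `U, W`, compatibly
with the place reduction `r`. -/
def IsIntQuot
    (r : Place (AlgebraicClosure ℚ) (modularFunctionFieldBar N) →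
      Place (IsLocalRing.ResidueField A)
        (modularFunctionFieldFullC (IsLocalRing.ResidueField A) N))
    (E : Divisor (AlgebraicClosure ℚ) (modularFunctionFieldBar N)) : Prop :=
  ∃ U W : intSeries N A, toRed N A U ≠ 0 ∧ toRed N A W ≠ 0 ∧
    (∀ P, E P = P.ord (toBar N A U) - P.ord (toBar N A W)) ∧
    (∀ Q, Finsupp.mapDomain r E Q = Q.ord (toRed N A U) - Q.ord (toRed N A W))

theorem isIntQuot_of_mem_closure
    {r : Place (AlgebraicClosure ℚ) (modularFunctionFieldBar N) →
      Place (IsLocalRing.ResidueField A)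
        (modularFunctionFieldFullC (IsLocalRing.ResidueField A) N)}
    (hr : IsPlaceReductionAlong A (IsLocalRing.residue A) N r)
    {E : Divisor (AlgebraicClosure ℚ) (modularFunctionFieldBar N)}
    (hE : E ∈ AddSubgroup.closure (integralPrincipalDivisors A (IsLocalRing.residue A) N)) :
    IsIntQuot N A r E := by
  induction hE using AddSubgroup.closure_induction with
  | mem E hE =>
    obtain ⟨y, hy, hyk, hne, hEy⟩ := hE
    refine ⟨⟨y, hy, hyk⟩, 1, fun h => hne (congrArg Subtype.val h), ?_, ?_, ?_⟩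
    · rw [toRed_one]; exact one_ne_zero
    · intro P
      rw [toBar_one, Place.ord_one, sub_zero]
      exact hEy P
    · intro Q
      rw [toRed_one, Place.ord_one, sub_zero]
      exact hr.2 y hy hyk hne E hEy Q
  | zero =>
    refine ⟨1, 1, ?_, ?_, ?_, ?_⟩
    · rw [toRed_one]; exact one_ne_zero
    · rw [toRed_one]; exact one_ne_zero
    · intro P; simp
    · intro Q; simp
  | add E E' _ _ hE hE' =>
    obtain ⟨U, W, hU, hW, h1, h2⟩ := hE
    obtain ⟨U', W', hU', hW', h1', h2'⟩ := hE'
    refine ⟨U * U', W * W', ?_, ?_, ?_, ?_⟩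
    · rw [toRed_mul]; exact mul_ne_zero hU hU'
    · rw [toRed_mul]; exact mul_ne_zero hW hW'
    · intro P
      rw [Finsupp.add_apply, h1 P, h1' P, toBar_mul, toBar_mul,
        P.ord_mul (toBar_ne_zero N A hU) (toBar_ne_zero N A hU'),
        P.ord_mul (toBar_ne_zero N A hW) (toBar_ne_zero N A hW')]
      ring
    · intro Q
      rw [Finsupp.mapDomain_add, Finsupp.add_apply, h2 Q, h2' Q, toRed_mul, toRed_mul,
        Q.ord_mul hU hU', Q.ord_mul hW hW']
      ring
  | neg E _ hE =>
    obtain ⟨U, W, hU, hW, h1, h2⟩ := hE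
    refine ⟨W, U, hW, hU, ?_, ?_⟩
    · intro P
      rw [Finsupp.neg_apply, h1 P]; ring
    · intro Q
      rw [← Finsupp.mapDomain.addMonoidHom_apply, map_neg, Finsupp.mapDomain.addMonoidHom_apply,
        Finsupp.neg_apply, h2 Q]
      ring

/-! ### Roots in the residue field -/

theorem exists_pow_eq_residue (m : ℕ) (hm : m ≠ 0) (a : IsLocalRing.ResidueField A) :
    ∃ b : A, IsLocalRing.residue A b ^ m = a := by
  obtain ⟨a', rfl⟩ := IsLocalRing.residue_surjective a
  obtain ⟨x, hx⟩ := IsAlgClosed.exists_pow_nat_eq (a' : AlgebraicClosure ℚ) (Nat.pos_of_ne_zero hm)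
  have hxA : x ∈ A := by
    by_contra hxn
    have hinv : x⁻¹ ∈ A := (A.mem_or_inv_mem x).resolve_left hxn
    have hx0 : x ≠ 0 := fun h => hxn (h ▸ A.zero_mem)
    -- `x⁻¹` is a unit of `A` or `a' = 0`
    have h1 : x⁻¹ ^ m * (a' : AlgebraicClosure ℚ) = 1 := by
      rw [← hx, ← mul_pow, inv_mul_cancel₀ hx0, one_pow]
    -- then `x = x⁻¹ ^ (m-1) * a' ∈ A`
    apply hxn
    have h2 : x = x⁻¹ ^ (m - 1) * (a' : AlgebraicClosure ℚ) := by
      have h3 : x⁻¹ ^ m = x⁻¹ ^ (m - 1) * x⁻¹ := by
        rw [← pow_succ, Nat.sub_add_cancel (Nat.pos_of_ne_zero hm)]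
      rw [h3] at h1
      calc x = x * (x⁻¹ ^ (m - 1) * x⁻¹ * (a' : AlgebraicClosure ℚ)) := by rw [h1, mul_one]
        _ = x⁻¹ ^ (m - 1) * (a' : AlgebraicClosure ℚ) * (x * x⁻¹) := by ring
        _ = x⁻¹ ^ (m - 1) * (a' : AlgebraicClosure ℚ) := by rw [mul_inv_cancel₀ hx0, mul_one]
    rw [h2]
    exact A.mul_mem _ _ (pow_mem hinv _) a'.2
  refine ⟨⟨x, hxA⟩, ?_⟩
  rw [← map_pow]
  congr 1
  exact Subtype.ext hx


/-! ### The wiring -/

theorem ord_pow {K F : Type*} [Field K] [Field F] [Algebra K F] (P : Place K F) (f : F) (n : ℕ) :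
    P.ord (f ^ n) = n * P.ord f := by
  have h := P.ord_zpow f (n : ℤ)
  rwa [zpow_natCast] at h

theorem toBar_C (b : A) :
    toBar N A ⟨HahnSeries.C b, C_mem_intSeries N A b⟩ =
      algebraMap (AlgebraicClosure ℚ) (modularFunctionFieldBar N) (b : AlgebraicClosure ℚ) := by
  apply Subtype.ext
  change coeffMap A.subtype (HahnSeries.C b) = _
  rw [coeffMap_C, C_eq_algebraMap]
  rfl

/-- A function-form sufficient condition for `InjAt`: `U = c * H ^ m * W` in the function
field. -/
theorem injAt_of_eq_mul_pow (m : ℕ)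
    (hfun : ∀ (U W : LaurentSeries A)
      (hU : coeffMap A.subtype U ∈ modularFunctionFieldBar N)
      (hW : coeffMap A.subtype W ∈ modularFunctionFieldBar N),
      coeffMap (IsLocalRing.residue A) U ∈
        modularFunctionFieldFullC (IsLocalRing.ResidueField A) N →
      coeffMap (IsLocalRing.residue A) U = coeffMap (IsLocalRing.residue A) W →
      coeffMap (IsLocalRing.residue A) U ≠ 0 →
      (∀ P : Place (AlgebraicClosure ℚ) (modularFunctionFieldBar N),
        (m : ℤ) ∣ P.ord (⟨coeffMap A.subtype U, hU⟩ : modularFunctionFieldBar N) -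
          P.ord (⟨coeffMap A.subtype W, hW⟩ : modularFunctionFieldBar N)) →
      ∃ (c : AlgebraicClosure ℚ) (H : modularFunctionFieldBar N), c ≠ 0 ∧
        (⟨coeffMap A.subtype U, hU⟩ : modularFunctionFieldBar N) =
          algebraMap (AlgebraicClosure ℚ) (modularFunctionFieldBar N) c * H ^ m *
            (⟨coeffMap A.subtype W, hW⟩ : modularFunctionFieldBar N)) :
    InjAt N A m := by
  intro U W hU hW hUk hred hne hdiv
  obtain ⟨c, H, hc, hEq⟩ := hfun U W hU hW hUk hred hne hdiv
  have hinj : Function.Injective (coeffMap A.subtype) := coeffMap_subtype_injective A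
  have hU0 : (⟨coeffMap A.subtype U, hU⟩ : modularFunctionFieldBar N) ≠ 0 := by
    intro h0
    have h1 : coeffMap A.subtype U = 0 := congrArg Subtype.val h0
    have h2 : U = 0 := hinj (by rw [h1, map_zero])
    exact hne (by rw [h2, map_zero])
  have hW0 : (⟨coeffMap A.subtype W, hW⟩ : modularFunctionFieldBar N) ≠ 0 := by
    intro h0
    have h1 : coeffMap A.subtype W = 0 := congrArg Subtype.val h0
    have h2 : W = 0 := hinj (by rw [h1, map_zero])
    exact hne (by rw [hred, h2, map_zero])
  have hc0 : algebraMap (AlgebraicClosure ℚ) (modularFunctionFieldBar N) c ≠ 0 :=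
    (map_ne_zero _).mpr hc
  have hHm : H ^ m ≠ 0 := by
    intro h0
    rw [h0, mul_zero, zero_mul] at hEq
    exact hU0 hEq
  obtain ⟨H', hH'0, hH'm⟩ : ∃ H' : modularFunctionFieldBar N, H' ≠ 0 ∧ H' ^ m = H ^ m := by
    by_cases hH : H = 0
    · refine ⟨1, one_ne_zero, ?_⟩
      rcases Nat.eq_zero_or_pos m with hm | hm
      · subst hm
        rw [pow_zero, pow_zero]
      · exact absurd (by rw [hH, zero_pow hm.ne']) hHm
    · exact ⟨H, hH, rfl⟩
  refine ⟨H', hH'0, fun P => ?_⟩
  rw [hEq, P.ord_mul (mul_ne_zero hc0 hHm) hW0, P.ord_mul hc0 hHm, ord_algebraMap P c hc,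
    ← hH'm, ord_pow P]
  ring

/-- **S18 at a fixed exponent `m ≠ 0` from `(Inj')` at `m` and `Const`.** -/
theorem result_at (m : ℕ) (hm0 : m ≠ 0) (hInj : InjAt N A m) (hConst : Const N A)
    (h : ModularCurve.ReductionInputsModL A N)
    (z : ModularCurve.JZero N) (hmz : m • z = 0)
    (hz : ModularCurve.reductionModL A N z = 0) : z = 0 := by
  classical
  have hmZ : (m : ℤ) ≠ 0 := Int.natCast_ne_zero.mpr hm0
  obtain ⟨D, rfl⟩ := Pic0.mk_surjective z
  have hr : IsPlaceReductionAlong A (IsLocalRing.residue A) N (placeReductionModL h) :=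
    isPlaceReductionModL_placeReductionModL h
  have hgen : PrincipalGeneratedByIntegral A (IsLocalRing.residue A) N := h.choose_spec.2
  -- `m • D` is principal
  have h1 : m • (D : Divisor (AlgebraicClosure ℚ) (modularFunctionFieldBar N)) ∈
      Divisor.principal (K := AlgebraicClosure ℚ) (F := modularFunctionFieldBar N) := by
    have h1' : Pic0.mk (m • D) = 0 := hmz
    rw [Pic0.mk, QuotientAddGroup.eq_zero_iff, AddSubgroup.mem_addSubgroupOf] at h1'
    exact h1'
  -- the reduction of `D` is principal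
  have h2 : Finsupp.mapDomain (placeReductionModL h)
      (D : Divisor (AlgebraicClosure ℚ) (modularFunctionFieldBar N)) ∈
      Divisor.principal (K := IsLocalRing.ResidueField A)
        (F := modularFunctionFieldFullC (IsLocalRing.ResidueField A) N) := by
    rw [reductionModL_mk h D, Pic0.mk, QuotientAddGroup.eq_zero_iff,
      AddSubgroup.mem_addSubgroupOf] at hz
    exact hz
  obtain ⟨U, W, hU, hW, hUW, hUWr⟩ := isIntQuot_of_mem_closure N A hr (hgen h1)
  obtain ⟨φ, hφ0, hφ⟩ := h2
  have hord : ∀ Q : Place (IsLocalRing.ResidueField A)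
      (modularFunctionFieldFullC (IsLocalRing.ResidueField A) N),
      Q.ord (toRed N A U) - Q.ord (toRed N A W) = m * Q.ord φ := by
    intro Q
    rw [← hUWr Q, Finsupp.mapDomain_smul, Finsupp.smul_apply, hφ Q, nsmul_eq_mul]
  -- the quotient is a constant
  have hφm : φ ^ m ≠ 0 := pow_ne_zero m hφ0
  obtain ⟨a, ha⟩ := hConst (toRed N A U * (toRed N A W)⁻¹ * (φ ^ m)⁻¹)
    (mul_ne_zero (mul_ne_zero hU (inv_ne_zero hW)) (inv_ne_zero hφm)) (by
      intro Q
      rw [Q.ord_mul (mul_ne_zero hU (inv_ne_zero hW)) (inv_ne_zero hφm),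
        Q.ord_mul hU (inv_ne_zero hW), Q.ord_inv, Q.ord_inv, ord_pow]
      linarith [hord Q])
  -- as series: `Ū = C a * W̄ * φ^m`
  have hUa : coeffMap (IsLocalRing.residue A) U.1 =
      HahnSeries.C a * coeffMap (IsLocalRing.residue A) W.1 *
        (φ : LaurentSeries (IsLocalRing.ResidueField A)) ^ m := by
    have hW' : coeffMap (IsLocalRing.residue A) W.1 ≠ 0 := fun h0 => hW (Subtype.ext h0)
    have hφ' : (φ : LaurentSeries (IsLocalRing.ResidueField A)) ^ m ≠ 0 :=
      pow_ne_zero m (fun h0 => hφ0 (Subtype.ext h0))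
    have ha' : coeffMap (IsLocalRing.residue A) U.1 *
        (coeffMap (IsLocalRing.residue A) W.1)⁻¹ *
        ((φ : LaurentSeries (IsLocalRing.ResidueField A)) ^ m)⁻¹ = HahnSeries.C a := by
      rw [C_eq_algebraMap]
      exact congrArg Subtype.val ha
    rw [← ha']
    field_simp
  have ha0 : a ≠ 0 := by
    rintro rfl
    rw [map_zero, zero_mul, zero_mul] at hUa
    exact hU (Subtype.ext hUa)
  -- an `m`-th root of `a`, lifted to `A`
  obtain ⟨b, hb⟩ := exists_pow_eq_residue A m hm0 a
  have hb0 : (b : AlgebraicClosure ℚ) ≠ 0 := by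
    intro h0
    have hb' : b = 0 := Subtype.ext h0
    rw [hb', map_zero, zero_pow hm0] at hb
    exact ha0 hb.symm
  -- lift `φ`
  obtain ⟨Y₁, hY₁, Y₂, hY₂, hY₂0, hY⟩ :=
    exists_lift N A (φ : LaurentSeries (IsLocalRing.ResidueField A)) φ.2
  set y₁ : intSeries N A := ⟨Y₁, hY₁⟩ with hy₁
  set y₂ : intSeries N A := ⟨Y₂, hY₂⟩ with hy₂
  set cb : intSeries N A := ⟨HahnSeries.C b, C_mem_intSeries N A b⟩ with hcb
  have hy₂0 : toRed N A y₂ ≠ 0 := fun h0 => hY₂0 (congrArg Subtype.val h0)
  have hy₁0 : toRed N A y₁ ≠ 0 := by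
    intro h0
    have h0' : coeffMap (IsLocalRing.residue A) Y₁ = 0 := congrArg Subtype.val h0
    rw [h0'] at hY
    rcases mul_eq_zero.mp hY with h3 | h3
    · exact hφ0 (Subtype.ext h3)
    · exact hY₂0 h3
  have hcb0 : toBar N A cb ≠ 0 := by
    rw [hcb, toBar_C]
    exact (map_ne_zero _).mpr hb0
  -- the two integral series of `(Inj')`
  set U' : intSeries N A := U * y₂ ^ m with hU'
  set W' : intSeries N A := W * (cb * y₁) ^ m with hW'
  have hred : coeffMap (IsLocalRing.residue A) U'.1 = coeffMap (IsLocalRing.residue A) W'.1 := by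
    change coeffMap (IsLocalRing.residue A) (U.1 * Y₂ ^ m) =
      coeffMap (IsLocalRing.residue A) (W.1 * (HahnSeries.C b * Y₁) ^ m)
    have hCb : (HahnSeries.C ((IsLocalRing.residue A) b) :
        LaurentSeries (IsLocalRing.ResidueField A)) ^ m = HahnSeries.C a := by
      rw [← map_pow, hb]
    rw [map_mul, map_mul, map_pow, map_pow, map_mul, coeffMap_C, hUa, ← hY, mul_pow, mul_pow, hCb]
    ring
  have hne : coeffMap (IsLocalRing.residue A) U'.1 ≠ 0 := by
    change coeffMap (IsLocalRing.residue A) (U.1 * Y₂ ^ m) ≠ 0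
    rw [map_mul, map_pow]
    exact mul_ne_zero (fun h0 => hU (Subtype.ext h0)) (pow_ne_zero m hY₂0)
  -- orders of `U'` and `W'`
  have hordU' : ∀ P : Place (AlgebraicClosure ℚ) (modularFunctionFieldBar N),
      P.ord (toBar N A U') = P.ord (toBar N A U) + m * P.ord (toBar N A y₂) := by
    intro P
    rw [hU', toBar_mul, toBar_pow,
      P.ord_mul (toBar_ne_zero N A hU) (pow_ne_zero m (toBar_ne_zero N A hy₂0)), ord_pow]
  have hordW' : ∀ P : Place (AlgebraicClosure ℚ) (modularFunctionFieldBar N),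
      P.ord (toBar N A W') = P.ord (toBar N A W) + m * P.ord (toBar N A y₁) := by
    intro P
    rw [hW', toBar_mul, toBar_pow, toBar_mul,
      P.ord_mul (toBar_ne_zero N A hW)
        (pow_ne_zero m (mul_ne_zero hcb0 (toBar_ne_zero N A hy₁0))), ord_pow,
      P.ord_mul hcb0 (toBar_ne_zero N A hy₁0), hcb, toBar_C, ord_algebraMap P _ hb0, zero_add]
  have hmD : ∀ P : Place (AlgebraicClosure ℚ) (modularFunctionFieldBar N),
      (m : ℤ) * (D : Divisor (AlgebraicClosure ℚ) (modularFunctionFieldBar N)) P =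
        P.ord (toBar N A U) - P.ord (toBar N A W) := by
    intro P
    rw [← hUW P, Finsupp.smul_apply, nsmul_eq_mul]
  obtain ⟨H, hH0, hH⟩ := hInj U'.1 W'.1 U'.2.1 W'.2.1 U'.2.2 hred hne (by
    intro P
    change (m : ℤ) ∣ P.ord (toBar N A U') - P.ord (toBar N A W')
    rw [hordU' P, hordW' P]
    refine ⟨(D : Divisor (AlgebraicClosure ℚ) (modularFunctionFieldBar N)) P +
      P.ord (toBar N A y₂) - P.ord (toBar N A y₁), ?_⟩
    linarith [hmD P])
  -- conclusion: `D = div (H * y₁ / y₂)`
  rw [Pic0.mk, QuotientAddGroup.eq_zero_iff, AddSubgroup.mem_addSubgroupOf]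
  refine ⟨H * toBar N A y₁ * (toBar N A y₂)⁻¹,
    mul_ne_zero (mul_ne_zero hH0 (toBar_ne_zero N A hy₁0)) (inv_ne_zero (toBar_ne_zero N A hy₂0)),
    fun P => ?_⟩
  rw [P.ord_mul (mul_ne_zero hH0 (toBar_ne_zero N A hy₁0)) (inv_ne_zero (toBar_ne_zero N A hy₂0)),
    P.ord_mul hH0 (toBar_ne_zero N A hy₁0), P.ord_inv]
  have hHP : P.ord (toBar N A U') - P.ord (toBar N A W') = m * P.ord H := hH P
  rw [hordU' P, hordW' P] at hHP
  have key : (m : ℤ) * (D : Divisor (AlgebraicClosure ℚ) (modularFunctionFieldBar N)) P =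
      (m : ℤ) * (P.ord H + P.ord (toBar N A y₁) + -P.ord (toBar N A y₂)) := by
    linarith [hmD P]
  exact mul_left_cancel₀ hmZ key

/-- **S18 from `(Inj')` and `Const`.** -/
theorem result_of {ℓ : ℕ} (hInj : Inj N A ℓ) (hConst : Const N A)
    (h : ModularCurve.ReductionInputsModL A N) (m : ℕ) (hm : ¬ ℓ ∣ m)
    (z : ModularCurve.JZero N) (hmz : m • z = 0)
    (hz : ModularCurve.reductionModL A N z = 0) : z = 0 :=
  result_at N A m (fun h0 => hm (h0 ▸ dvd_zero ℓ)) (hInj m hm) hConst h z hmz hz

/-- **S18 from `(Inj')` at prime exponents `p ≠ ℓ` and `Const`** (induction on `m` in the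
group). -/
theorem result_of_prime {ℓ : ℕ} (hInj : InjPrime N A ℓ) (hConst : Const N A)
    (h : ModularCurve.ReductionInputsModL A N) (m : ℕ) (hm : ¬ ℓ ∣ m)
    (z : ModularCurve.JZero N) (hmz : m • z = 0)
    (hz : ModularCurve.reductionModL A N z = 0) : z = 0 := by
  induction m using Nat.strong_induction_on generalizing z with
  | _ m ih =>
    rcases Nat.eq_zero_or_pos m with h0 | hpos
    · exact absurd (h0 ▸ dvd_zero ℓ) hm
    by_cases h1 : m = 1
    · rw [h1, one_smul] at hmz
      exact hmz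
    have hp : (Nat.minFac m).Prime := Nat.minFac_prime h1
    obtain ⟨m', hm'⟩ := Nat.minFac_dvd m
    have hpℓ : Nat.minFac m ≠ ℓ := fun h2 => hm (h2 ▸ Nat.minFac_dvd m)
    have hm'ℓ : ¬ ℓ ∣ m' := fun h2 => hm (hm' ▸ Dvd.dvd.mul_left h2 _)
    have hm'pos : 0 < m' := by
      rcases Nat.eq_zero_or_pos m' with h2 | h2
      · rw [h2, mul_zero] at hm'
        omega
      · exact h2
    have hlt : m' < m := by
      have h2 : 2 ≤ Nat.minFac m := hp.two_le
      calc m' < 2 * m' := by omega
        _ ≤ Nat.minFac m * m' := Nat.mul_le_mul_right _ h2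
        _ = m := hm'.symm
    have hz' : m' • z = 0 := by
      refine result_at N A (Nat.minFac m) hp.ne_zero (hInj _ hp hpℓ) hConst h (m' • z) ?_ ?_
      · rw [← mul_smul, ← hm']
        exact hmz
      · rw [map_nsmul, hz, smul_zero]
    exact ih m' hlt hm'ℓ z hz' hz

end Fermat.Agent.S18.Wiring
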