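import Mathlib
import Fermat.Prelude.Def_ModularCurve_ReductionModL
import Fermat.Agent.S30.GaussDVR
import Fermat.Agent.S18.Wiring

/-!
# S18 / Program E: the frozen interface between the Model Theorem and `(Inj')`

* `OE A E`   : the valuation ring `A ∩ E` of a subfield `E ⊆ Q̄`.
* `LE N E`   : the level-`N` function field over `E`, inside `E((q))`.
* `K1E O E L p` : the `E`-level Kummer statement `(K1)` for the Gauss valuation of `O` on `L`.
* `K1Modular N A p` : `(K1E)` for the modular function field over every sufficiently large number
  field (the output of the Model Theorem with its modular inputs).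

`S18/K1Top.lean` proves `Wiring.InjAt N A p` from `K1Modular N A p`.
-/

set_option autoImplicit false

noncomputable section

namespace Fermat.Agent.S18.K1Defs

open ModularCurve AlgebraicCurve

/-- The valuation ring `A ∩ E` of an intermediate field `E` of `Q̄ / ℚ`. -/
abbrev OE (A : ValuationSubring (AlgebraicClosure ℚ))
    (E : IntermediateField ℚ (AlgebraicClosure ℚ)) : ValuationSubring E :=
  A.comap (algebraMap E (AlgebraicClosure ℚ))

/-- Instance search for this fact times out at the default limit; we record it. -/
instance instFaithfulSMulValuationSubring (E : IntermediateField ℚ (AlgebraicClosure ℚ))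
    (V : ValuationSubring E) : FaithfulSMul V E :=
  (faithfulSMul_iff_algebraMap_injective V E).mpr Subtype.val_injective

/-- The level-`N` modular function field with constant field `E`, inside `E((q))`. -/
abbrev LE (N : ℕ) (E : Type*) [Field E] [Algebra ℚ E] : IntermediateField E (LaurentSeries E) :=
  laurentBaseChange E (modularFunctionFieldFull N)

/-- **`E`-level `(K1)`** at the exponent `p`, for a discrete valuation ring `O` with fraction
field `E` and a field `L ⊆ E((q))`: an element `g ∈ L` of the Gauss valuation ring with
reduction `1`, all of whose orders at the places of `L / E` are divisible by `p`, is a constant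
times a `p`-th power in `L`. -/
def K1E (O E : Type*) [CommRing O] [IsDomain O] [IsDiscreteValuationRing O] [Field E]
    [Algebra O E] [FaithfulSMul O E] (L : IntermediateField E (LaurentSeries E)) (p : ℕ) : Prop :=
  ∀ (g : LaurentSeries E) (hgL : g ∈ L) (hgV : g ∈ Fermat.Agent.S30.GaussDVR.V O E),
    Fermat.Agent.S30.GaussDVR.red O E ⟨g, hgV⟩ = 1 →
    (∀ P : Place E L, (p : ℤ) ∣ P.ord (⟨g, hgL⟩ : L)) →
    ∃ (c : E) (H : LaurentSeries E), H ∈ L ∧ g = HahnSeries.C c * H ^ p

/-- **`(K1)` for the modular function field of level `N`** at the exponent `p` and the valuation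
ring `A` of `Q̄`: `(K1E)` holds over every number field `E ⊆ Q̄` containing a fixed finite set
`S` of algebraic numbers (roots of unity, branch values, ...). -/
def K1Modular (N : ℕ) (A : ValuationSubring (AlgebraicClosure ℚ)) (p : ℕ) : Prop :=
  ∃ S : Finset (AlgebraicClosure ℚ),
    ∀ (E : IntermediateField ℚ (AlgebraicClosure ℚ)) [FiniteDimensional ℚ E]
      [IsDiscreteValuationRing (OE A E)],
      (∀ s ∈ S, s ∈ E) → K1E (OE A E) E (LE N E) p

end Fermat.Agent.S18.K1Defs
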