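import Mathlib
import Fermat.Prelude.Def_ModularCurve_ReductionModL
import Fermat.Agent.S30.GaussDVR
import Fermat.Agent.S18.Wiring
import Fermat.Agent.S18.K1Defs

/-!
# S18 / Program E: `(Inj')` from the `E`-level Kummer statement

`injAt_of_inputs` proves `Wiring.InjAt N A p` from `K1Defs.K1Modular N A p` and three descent
inputs (discreteness of `A ∩ E`, coefficients in a number field, places over `E` are dominated by
places over `Q̄`), stated as hypotheses.
-/

set_option autoImplicit false
set_option linter.unusedSectionVars false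
set_option synthInstance.maxHeartbeats 400000
set_option maxHeartbeats 1000000

noncomputable section

namespace Fermat.Agent.S18.K1Top

open ModularCurve AlgebraicCurve HahnSeries IntermediateField
open Fermat.Agent.S18.K1Defs Fermat.Agent.S18.Wiring
open Fermat.Agent.S30

local notation "Qb" => AlgebraicClosure ℚ

/-! ### Base change of the function field along a homomorphism of coefficient fields -/

section BaseChange

variable {K K' : Type*} [Field K] [Field K']

theorem coeffMap_algebraMap_hom (φ : K →+* K') (c : K) :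
    coeffMap φ (algebraMap K (LaurentSeries K) c) = algebraMap K' (LaurentSeries K') (φ c) := by
  rw [algebraMap_laurentSeries_eq_single, algebraMap_laurentSeries_eq_single, coeffMap_single]

theorem coeffMap_C_hom (φ : K →+* K') (c : K) :
    coeffMap φ (HahnSeries.C c : LaurentSeries K) = HahnSeries.C (φ c) := by
  rw [HahnSeries.C_apply, coeffMap_single, HahnSeries.C_apply]

variable [Algebra ℚ K] [Algebra ℚ K']

theorem coeffMap_coeffEmb_hom (φ : K →+* K') (x : LaurentSeries ℚ) :
    coeffMap φ (coeffEmb K x) = coeffEmb K' x := by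
  rw [coeffEmb, coeffEmb, coeffMap_coeffMap]
  exact coeffMap_congr (Subsingleton.elim _ _) x

/-- Base change of coefficients maps the function field over `K` into the one over `K'`. -/
theorem coeffMap_mem_laurentBaseChange_hom (φ : K →+* K')
    {F₀ : IntermediateField ℚ (LaurentSeries ℚ)} {x : LaurentSeries K}
    (hx : x ∈ laurentBaseChange K F₀) : coeffMap φ x ∈ laurentBaseChange K' F₀ := by
  rw [mem_laurentBaseChange_iff] at hx
  induction hx using Subfield.closure_induction with
  | mem y hy =>
      rcases hy with ⟨a, rfl⟩ | ⟨z, hz, rfl⟩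
      · rw [coeffMap_algebraMap_hom]
        exact (laurentBaseChange K' F₀).algebraMap_mem _
      · rw [coeffMap_coeffEmb_hom]
        exact coeffEmb_mem_laurentBaseChange K' hz
  | one => simp
  | add x y _ _ hx hy => simpa using add_mem hx hy
  | neg x _ hx => simpa using neg_mem hx
  | inv x _ hx => simpa using inv_mem hx
  | mul x y _ _ hx hy => simpa using mul_mem hx hy

theorem coeffMap_injective_hom (φ : K →+* K') : Function.Injective (coeffMap φ) := by
  intro x y h
  ext n
  apply φ.injective
  have := congrArg (fun t : LaurentSeries K' => t.coeff n) h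
  simpa using this

end BaseChange

/-! ### Series with coefficients in a valuation subring -/

section Lift

variable {K : Type*} [Field K] (V : ValuationSubring K)

/-- A series all of whose coefficients lie in `V` comes from a series over `V`. -/
theorem exists_iota_eq (x : LaurentSeries K) (hx : ∀ n, x.coeff n ∈ V) :
    ∃ u : LaurentSeries V, coeffMap (algebraMap V K) u = x := by
  refine ⟨HahnSeries.ofSuppBddBelow (fun n => (⟨x.coeff n, hx n⟩ : V)) ?_, ?_⟩
  · refine ⟨x.order, fun n hn => ?_⟩
    by_contra hlt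
    rw [not_le] at hlt
    apply hn
    exact Subtype.ext (HahnSeries.coeff_eq_zero_of_lt_order hlt)
  · ext n
    rfl

theorem isUnit_iff_inv_mem (x : V) : IsUnit x ↔ (x : K) ≠ 0 ∧ (x : K)⁻¹ ∈ V := by
  constructor
  · rintro ⟨u, rfl⟩
    have h1 : ((u : V) : K) * (((u⁻¹ : Vˣ) : V) : K) = 1 := by
      show (((u : V) * ((u⁻¹ : Vˣ) : V) : V) : K) = 1
      rw [u.mul_inv]
      rfl
    have h0 : ((u : V) : K) ≠ 0 := left_ne_zero_of_mul_eq_one h1
    refine ⟨h0, ?_⟩
    rw [inv_eq_of_mul_eq_one_right h1]
    exact Subtype.mem _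
  · rintro ⟨h0, h1⟩
    refine IsUnit.of_mul_eq_one (⟨(x : K)⁻¹, h1⟩ : V) ?_
    apply Subtype.ext
    show (x : K) * (x : K)⁻¹ = 1
    exact mul_inv_cancel₀ h0

end Lift

/-! ### The inclusion `A ∩ E → A` -/

section Incl

variable (A : ValuationSubring Qb) (E : IntermediateField ℚ Qb)

/-- The inclusion of `A ∩ E` into `A`. -/
def inclOA : OE A E →+* A where
  toFun x := ⟨algebraMap E Qb (x : E), x.2⟩
  map_one' := Subtype.ext (map_one _)
  map_mul' _ _ := Subtype.ext (map_mul _ _ _)
  map_zero' := Subtype.ext (map_zero _)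
  map_add' _ _ := Subtype.ext (map_add _ _ _)

theorem coe_inclOA (x : OE A E) : ((inclOA A E x : A) : Qb) = algebraMap E Qb (x : E) := rfl

theorem isUnit_inclOA_iff (x : OE A E) : IsUnit (inclOA A E x) ↔ IsUnit x := by
  rw [isUnit_iff_inv_mem, isUnit_iff_inv_mem, coe_inclOA]
  constructor
  · rintro ⟨h0, h1⟩
    refine ⟨fun h => h0 (by rw [h, map_zero]), ?_⟩
    show algebraMap E Qb ((x : E)⁻¹) ∈ A
    rw [map_inv₀]
    exact h1
  · rintro ⟨h0, h1⟩
    refine ⟨(map_ne_zero _).mpr h0, ?_⟩
    have h2 : algebraMap E Qb ((x : E)⁻¹) ∈ A := h1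
    rwa [map_inv₀] at h2

theorem residue_inclOA_eq_zero_iff (x : OE A E) :
    IsLocalRing.residue A (inclOA A E x) = 0 ↔ IsLocalRing.residue (OE A E) x = 0 := by
  rw [IsLocalRing.residue_eq_zero_iff, IsLocalRing.residue_eq_zero_iff,
    IsLocalRing.mem_maximalIdeal, IsLocalRing.mem_maximalIdeal, mem_nonunits_iff,
    mem_nonunits_iff, isUnit_inclOA_iff]

/-- Integral series over `A ∩ E` as integral series over `A`. -/
def up : LaurentSeries (OE A E) →+* LaurentSeries A := coeffMap (inclOA A E)

theorem incl_up (a : LaurentSeries (OE A E)) :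
    coeffMap A.subtype (up A E a) =
      coeffMap (algebraMap E Qb) (coeffMap (algebraMap (OE A E) E) a) := by
  ext n
  rfl

theorem red_up_eq_iff (a b : LaurentSeries (OE A E)) :
    coeffMap (IsLocalRing.residue A) (up A E a) = coeffMap (IsLocalRing.residue A) (up A E b) ↔
      coeffMap (IsLocalRing.residue (OE A E)) a = coeffMap (IsLocalRing.residue (OE A E)) b := by
  have key : ∀ n : ℤ, IsLocalRing.residue A (inclOA A E (a.coeff n)) =
      IsLocalRing.residue A (inclOA A E (b.coeff n)) ↔
      IsLocalRing.residue (OE A E) (a.coeff n) = IsLocalRing.residue (OE A E) (b.coeff n) := by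
    intro n
    rw [← sub_eq_zero, ← map_sub, ← map_sub, residue_inclOA_eq_zero_iff, map_sub, sub_eq_zero]
  constructor
  · intro h
    ext n
    have := congrArg (fun t : LaurentSeries (IsLocalRing.ResidueField A) => t.coeff n) h
    exact (key n).mp this
  · intro h
    ext n
    have := congrArg (fun t : LaurentSeries (IsLocalRing.ResidueField (OE A E)) => t.coeff n) h
    exact (key n).mpr this

theorem red_up_eq_zero_iff (a : LaurentSeries (OE A E)) :
    coeffMap (IsLocalRing.residue A) (up A E a) = 0 ↔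
      coeffMap (IsLocalRing.residue (OE A E)) a = 0 := by
  have h := red_up_eq_iff A E a 0
  rwa [map_zero, map_zero, map_zero] at h

/-- An integral series over `A` whose image over `Q̄` has coefficients in `E` comes from an
integral series over `A ∩ E`. -/
theorem exists_up_eq (U : LaurentSeries A) (u : LaurentSeries E)
    (hu : coeffMap (algebraMap E Qb) u = coeffMap A.subtype U) :
    ∃ a : LaurentSeries (OE A E), coeffMap (algebraMap (OE A E) E) a = u ∧ up A E a = U := by
  have hcoef : ∀ n, u.coeff n ∈ OE A E := by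
    intro n
    show algebraMap E Qb (u.coeff n) ∈ A
    have := congrArg (fun t : LaurentSeries Qb => t.coeff n) hu
    simp only [coeffMap_coeff] at this
    rw [this]
    exact Subtype.mem _
  obtain ⟨a, ha⟩ := exists_iota_eq (OE A E) u hcoef
  refine ⟨a, ha, ?_⟩
  have hinj : Function.Injective (coeffMap A.subtype) := coeffMap_subtype_injective A
  apply hinj
  rw [incl_up, ha, hu]

end Incl

/-! ### The main reduction -/

section Main

variable (N : ℕ) [NeZero N] (A : ValuationSubring Qb)

/-- The image in `Q̄((q))` of an element of the function field over `E`. -/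
theorem coeffMap_mem_bar (E : IntermediateField ℚ Qb) {y : LaurentSeries E} (hy : y ∈ LE N E) :
    coeffMap (algebraMap E Qb) y ∈ modularFunctionFieldBar N :=
  coeffMap_mem_laurentBaseChange_hom (algebraMap E Qb) hy

/-- Descent input: coefficients in a number field. -/
def CoefDescent : Prop :=
  ∀ x ∈ modularFunctionFieldBar N, ∃ E : IntermediateField ℚ Qb, FiniteDimensional ℚ E ∧
    ∃ y ∈ LE N E, coeffMap (algebraMap E Qb) y = x

/-- Descent input: every place over `E` is dominated by an (unramified) place over `Q̄`. -/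
def PlaceDescent : Prop :=
  ∀ (E : IntermediateField ℚ Qb) [FiniteDimensional ℚ E] (v : Place E (LE N E)),
    ∃ P : Place Qb (modularFunctionFieldBar N), ∀ (y : LaurentSeries E) (hy : y ∈ LE N E),
      P.ord (⟨coeffMap (algebraMap E Qb) y, coeffMap_mem_bar N E hy⟩ :
        modularFunctionFieldBar N) = v.ord (⟨y, hy⟩ : LE N E)

/-- Descent input: `A ∩ E` is a discrete valuation ring for every number field `E`. -/
def DVRDescent : Prop :=
  ∀ (E : IntermediateField ℚ Qb) [FiniteDimensional ℚ E], IsDiscreteValuationRing (OE A E)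

/-- Monotonicity of the function fields in the constant field. -/
theorem exists_mem_LE_of_le {E₁ E : IntermediateField ℚ Qb} (h : E₁ ≤ E) {y : LaurentSeries E₁}
    (hy : y ∈ LE N E₁) :
    ∃ u ∈ LE N E, coeffMap (algebraMap E Qb) u = coeffMap (algebraMap E₁ Qb) y := by
  refine ⟨coeffMap (IntermediateField.inclusion h : E₁ →+* E) y,
    coeffMap_mem_laurentBaseChange_hom _ hy, ?_⟩
  rw [coeffMap_coeffMap]
  exact coeffMap_congr (RingHom.ext fun c => rfl) y

/-- **Function form of `(K1)` over `Q̄`** from the `E`-level statement and the descent inputs. -/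
theorem fun_form_of_inputs (p : ℕ) (hDVR : DVRDescent A) (hCoef : CoefDescent N)
    (hPlace : PlaceDescent N) (hK : K1Modular N A p)
    (U W : LaurentSeries A)
    (hU : coeffMap A.subtype U ∈ modularFunctionFieldBar N)
    (hW : coeffMap A.subtype W ∈ modularFunctionFieldBar N)
    (hred : coeffMap (IsLocalRing.residue A) U = coeffMap (IsLocalRing.residue A) W)
    (hne : coeffMap (IsLocalRing.residue A) U ≠ 0)
    (hdiv : ∀ P : Place Qb (modularFunctionFieldBar N),
      (p : ℤ) ∣ P.ord (⟨coeffMap A.subtype U, hU⟩ : modularFunctionFieldBar N) -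
        P.ord (⟨coeffMap A.subtype W, hW⟩ : modularFunctionFieldBar N)) :
    ∃ (c : Qb) (H : modularFunctionFieldBar N), c ≠ 0 ∧
      (⟨coeffMap A.subtype U, hU⟩ : modularFunctionFieldBar N) =
        algebraMap Qb (modularFunctionFieldBar N) c * H ^ p *
          (⟨coeffMap A.subtype W, hW⟩ : modularFunctionFieldBar N) := by
  classical
  obtain ⟨S, hS⟩ := hK
  obtain ⟨E₁, hE₁, y₁, hy₁, hy₁U⟩ := hCoef _ hU
  obtain ⟨E₂, hE₂, y₂, hy₂, hy₂W⟩ := hCoef _ hW
  -- the number field
  let E₃ : IntermediateField ℚ Qb := IntermediateField.adjoin ℚ (S : Set Qb)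
  have hE₃ : FiniteDimensional ℚ E₃ :=
    IntermediateField.finiteDimensional_adjoin fun x _ =>
      ((AlgebraicClosure.isAlgebraic ℚ).isAlgebraic x).isIntegral
  let E : IntermediateField ℚ Qb := E₁ ⊔ E₂ ⊔ E₃
  have hE12 : FiniteDimensional ℚ (E₁ ⊔ E₂ : IntermediateField ℚ Qb) :=
    IntermediateField.finiteDimensional_sup E₁ E₂
  have hE : FiniteDimensional ℚ E := IntermediateField.finiteDimensional_sup (E₁ ⊔ E₂) E₃
  have hSE : ∀ s ∈ S, s ∈ E := fun s hs =>
    (le_sup_right : E₃ ≤ E) (IntermediateField.subset_adjoin ℚ _ hs)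
  have hDVRE : IsDiscreteValuationRing (OE A E) := hDVR E
  have hKE := hS E hSE
  -- the series over `E`
  obtain ⟨u, huL, huU⟩ := exists_mem_LE_of_le N
    ((le_sup_left : E₁ ≤ E₁ ⊔ E₂).trans le_sup_left : E₁ ≤ E) hy₁
  obtain ⟨w, hwL, hwW⟩ := exists_mem_LE_of_le N
    ((le_sup_right : E₂ ≤ E₁ ⊔ E₂).trans le_sup_left : E₂ ≤ E) hy₂
  rw [hy₁U] at huU
  rw [hy₂W] at hwW
  obtain ⟨a, hau', haU⟩ := exists_up_eq A E U u huU
  obtain ⟨b, hbw', hbW⟩ := exists_up_eq A E W w hwW
  have hau : GaussDVR.iota (OE A E) E a = u := hau'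
  have hbw : GaussDVR.iota (OE A E) E b = w := hbw'
  have hrho : GaussDVR.rho (OE A E) a = GaussDVR.rho (OE A E) b := by
    have h1 := (red_up_eq_iff A E a b).mp (by rw [haU, hbW]; exact hred)
    exact h1
  have hrhoa : GaussDVR.rho (OE A E) a ≠ 0 := by
    intro h0
    have h1 := (red_up_eq_zero_iff A E a).mpr h0
    rw [haU] at h1
    exact hne h1
  have hrhob : GaussDVR.rho (OE A E) b ≠ 0 := hrho ▸ hrhoa
  have hu0 : u ≠ 0 := by
    rintro rfl
    have : a = 0 := GaussDVR.iota_injective (OE A E) E (by rw [hau, map_zero])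
    exact hrhoa (by rw [this, map_zero])
  have hw0 : w ≠ 0 := by
    rintro rfl
    have : b = 0 := GaussDVR.iota_injective (OE A E) E (by rw [hbw, map_zero])
    exact hrhob (by rw [this, map_zero])
  -- the function `g = u / w`
  have hgL : u / w ∈ LE N E := div_mem huL hwL
  have hgV : u / w ∈ GaussDVR.V (OE A E) E := by
    rw [← hau, ← hbw]
    exact GaussDVR.div_mem (OE A E) E a b hrhob
  have hg1 : GaussDVR.red (OE A E) E ⟨u / w, hgV⟩ = 1 := by
    have h1 := GaussDVR.red_div (OE A E) E a b hrhob
    have h2 : (⟨u / w, hgV⟩ : GaussDVR.V (OE A E) E) =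
        ⟨GaussDVR.iota (OE A E) E a / GaussDVR.iota (OE A E) E b,
          GaussDVR.div_mem (OE A E) E a b hrhob⟩ := by
      apply Subtype.ext
      show u / w = GaussDVR.iota (OE A E) E a / GaussDVR.iota (OE A E) E b
      rw [hau, hbw]
    rw [h2, h1, hrho, div_self hrhob]
  have hgdiv : ∀ v : Place E (LE N E), (p : ℤ) ∣ v.ord (⟨u / w, hgL⟩ : LE N E) := by
    intro v
    obtain ⟨P, hP⟩ := hPlace E v
    have huL0 : (⟨u, huL⟩ : LE N E) ≠ 0 := fun h => hu0 (congrArg Subtype.val h)
    have hwL0 : (⟨w, hwL⟩ : LE N E) ≠ 0 := fun h => hw0 (congrArg Subtype.val h)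
    have h1 : (⟨u / w, hgL⟩ : LE N E) = ⟨u, huL⟩ * (⟨w, hwL⟩ : LE N E)⁻¹ := by
      apply Subtype.ext
      show u / w = u * w⁻¹
      rw [div_eq_mul_inv]
    rw [h1, v.ord_mul huL0 (inv_ne_zero hwL0), v.ord_inv, ← hP u huL, ← hP w hwL]
    have h2 := hdiv P
    have e1 : (⟨coeffMap (algebraMap E Qb) u, coeffMap_mem_bar N E huL⟩ :
        modularFunctionFieldBar N) = ⟨coeffMap A.subtype U, hU⟩ := Subtype.ext huU
    have e2 : (⟨coeffMap (algebraMap E Qb) w, coeffMap_mem_bar N E hwL⟩ :
        modularFunctionFieldBar N) = ⟨coeffMap A.subtype W, hW⟩ := Subtype.ext hwW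
    rw [e1, e2, ← sub_eq_add_neg]
    exact h2
  -- apply `(K1E)`
  obtain ⟨c, H, hHL, hgH⟩ := hKE (u / w) hgL hgV hg1 hgdiv
  have hc0 : c ≠ 0 := by
    rintro rfl
    rw [map_zero, zero_mul] at hgH
    exact (div_ne_zero hu0 hw0) hgH
  refine ⟨algebraMap E Qb c, ⟨coeffMap (algebraMap E Qb) H, coeffMap_mem_bar N E hHL⟩,
    (map_ne_zero _).mpr hc0, ?_⟩
  apply Subtype.ext
  show coeffMap A.subtype U = algebraMap Qb (LaurentSeries Qb) (algebraMap E Qb c) *
    coeffMap (algebraMap E Qb) H ^ p * coeffMap A.subtype W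
  have h3 : u = HahnSeries.C c * H ^ p * w := by
    rw [← hgH, div_mul_cancel₀ u hw0]
  rw [← huU, ← hwW, h3, map_mul, map_mul, map_pow, coeffMap_C_hom, Wiring.C_eq_algebraMap]

/-- **`(Inj')` at `p`** from the `E`-level statement and the descent inputs. -/
theorem injAt_of_inputs (p : ℕ) (hDVR : DVRDescent A) (hCoef : CoefDescent N)
    (hPlace : PlaceDescent N) (hK : K1Modular N A p) : InjAt N A p :=
  injAt_of_eq_mul_pow N A p fun U W hU hW _ hred hne hdiv =>
    fun_form_of_inputs N A p hDVR hCoef hPlace hK U W hU hW hred hne hdiv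

end Main

end Fermat.Agent.S18.K1Top
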