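import Mathlib
import Fermat.Prelude.Def_ModularCurve_ReductionModL
import Fermat.Agent.Lib.PlaceExt
import Fermat.Agent.S30.GaussDVR
import Fermat.Agent.S30.GaussDescent
import Fermat.Agent.S18.Wiring
import Fermat.Agent.S18.K1Defs
import Fermat.Agent.S18.K1Top

/-!
# S18 / Program E: the three descent inputs of `K1Top.injAt_of_inputs`

* `dvrDescent`   : `A ∩ E` is a discrete valuation ring (`S30.GaussDescent`);
* `coefDescent`  : elements of the function field have coefficients in a number field
  (`S30.GaussDescent`);
* `placeDescent` : every place over `E` lies under an unramified place over `Q̄`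
  (`Lib.PlaceExt`).

Hence `injAt_of_k1Modular : K1Modular N A p → Wiring.InjAt N A p`.
-/

set_option autoImplicit false
set_option linter.unusedSectionVars false
set_option synthInstance.maxHeartbeats 400000
set_option maxHeartbeats 1000000

noncomputable section

namespace Fermat.Agent.S18.K1Descent

open ModularCurve AlgebraicCurve HahnSeries IntermediateField
open Fermat.Agent.S18.K1Defs Fermat.Agent.S18.Wiring Fermat.Agent.S18.K1Top
open Fermat.Agent.S30

local notation "Qb" => AlgebraicClosure ℚ

variable (N : ℕ) [NeZero N] (A : ValuationSubring Qb)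

theorem dvrDescent {ℓ : ℕ} (hℓ : ℓ.Prime) (hA : A.LiesOverPrime ℓ) : DVRDescent A :=
  fun E _ => GaussDescent.isDiscreteValuationRing_OE A E hℓ hA

theorem coefDescent : CoefDescent N := by
  intro x hx
  obtain ⟨E₀, hE₀, h⟩ := GaussDescent.exists_descent (modularFunctionFieldFull N) hx
  obtain ⟨y, hy, hyx⟩ := h E₀ le_rfl
  exact ⟨E₀, hE₀, y, hy, hyx⟩

/-! ### Places -/

section Places

variable (E : IntermediateField ℚ Qb)

/-- Extension of constants `L_E → F̄` as a ring homomorphism. -/
def upHom : LE N E →+* modularFunctionFieldBar N where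
  toFun x := ⟨coeffMap (algebraMap E Qb) x.1, coeffMap_mem_bar N E x.2⟩
  map_one' := Subtype.ext (map_one _)
  map_mul' _ _ := Subtype.ext (map_mul _ _ _)
  map_zero' := Subtype.ext (map_zero _)
  map_add' _ _ := Subtype.ext (map_add _ _ _)

theorem isAlgebraic_E_Qb : Algebra.IsAlgebraic E Qb :=
  haveI := GaussDescent.isAlgebraic_rat_Qb
  Algebra.IsAlgebraic.tower_top (K := ℚ) E

theorem placeDescent : PlaceDescent N := by
  intro E _ v
  let _ : Algebra (LE N E) (modularFunctionFieldBar N) := (upHom N E).toAlgebra
  have : Algebra.IsAlgebraic E Qb := isAlgebraic_E_Qb E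
  have : IsScalarTower E (LE N E) (modularFunctionFieldBar N) := by
    refine IsScalarTower.of_algebraMap_eq fun c => ?_
    apply Subtype.ext
    show algebraMap Qb (LaurentSeries Qb) (algebraMap E Qb c) =
      coeffMap (algebraMap E Qb) (algebraMap E (LaurentSeries E) c)
    rw [coeffMap_algebraMap_hom]
  have hgen : IntermediateField.adjoin (LE N E)
      (Set.range (algebraMap Qb (modularFunctionFieldBar N))) = ⊤ := by
    rw [eq_top_iff]
    rintro ⟨x, hx⟩ -
    have key : ∀ (x : LaurentSeries Qb), x ∈ Subfield.closure
        (Set.range (algebraMap Qb (LaurentSeries Qb)) ∪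
          (⇑(coeffEmb Qb) '' ((modularFunctionFieldFull N : IntermediateField ℚ _) :
            Set (LaurentSeries ℚ)))) →
        ∀ h : x ∈ modularFunctionFieldBar N, (⟨x, h⟩ : modularFunctionFieldBar N) ∈
          IntermediateField.adjoin (LE N E)
            (Set.range (algebraMap Qb (modularFunctionFieldBar N))) := by
      intro x hx
      induction hx using Subfield.closure_induction with
      | mem y hy =>
          intro h
          rcases hy with ⟨a, rfl⟩ | ⟨z, hz, rfl⟩
          · exact IntermediateField.subset_adjoin _ _ ⟨a, rfl⟩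
          · have h1 : (⟨coeffEmb Qb z, h⟩ : modularFunctionFieldBar N) =
                algebraMap (LE N E) (modularFunctionFieldBar N)
                  ⟨coeffEmb E z, coeffEmb_mem_laurentBaseChange E hz⟩ := by
              apply Subtype.ext
              show coeffEmb Qb z = coeffMap (algebraMap E Qb) (coeffEmb E z)
              rw [coeffMap_coeffEmb_hom]
            rw [h1]
            exact IntermediateField.algebraMap_mem _ _
      | one =>
          intro h
          have e : (⟨1, h⟩ : modularFunctionFieldBar N) = 1 := Subtype.ext rfl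
          rw [e]
          exact one_mem _
      | add x y hx hy ihx ihy =>
          intro h
          have hx' : x ∈ modularFunctionFieldBar N := mem_laurentBaseChange_iff.mpr hx
          have hy' : y ∈ modularFunctionFieldBar N := mem_laurentBaseChange_iff.mpr hy
          have e : (⟨x + y, h⟩ : modularFunctionFieldBar N) = ⟨x, hx'⟩ + ⟨y, hy'⟩ :=
            Subtype.ext rfl
          rw [e]
          exact add_mem (ihx hx') (ihy hy')
      | neg x hx ihx =>
          intro h
          have hx' : x ∈ modularFunctionFieldBar N := mem_laurentBaseChange_iff.mpr hx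
          have e : (⟨-x, h⟩ : modularFunctionFieldBar N) = -⟨x, hx'⟩ := Subtype.ext rfl
          rw [e]
          exact neg_mem (ihx hx')
      | inv x hx ihx =>
          intro h
          have hx' : x ∈ modularFunctionFieldBar N := mem_laurentBaseChange_iff.mpr hx
          have e : (⟨x⁻¹, h⟩ : modularFunctionFieldBar N) = (⟨x, hx'⟩)⁻¹ := Subtype.ext rfl
          rw [e]
          exact inv_mem (ihx hx')
      | mul x y hx hy ihx ihy =>
          intro h
          have hx' : x ∈ modularFunctionFieldBar N := mem_laurentBaseChange_iff.mpr hx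
          have hy' : y ∈ modularFunctionFieldBar N := mem_laurentBaseChange_iff.mpr hy
          have e : (⟨x * y, h⟩ : modularFunctionFieldBar N) = ⟨x, hx'⟩ * ⟨y, hy'⟩ :=
            Subtype.ext rfl
          rw [e]
          exact mul_mem (ihx hx') (ihy hy')
    exact key x (mem_laurentBaseChange_iff.mp hx) hx
  obtain ⟨P, hP⟩ := Fermat.Agent.Lib.PlaceExt.exists_place_above (E := E) (Ω := Qb)
    (L := LE N E) (F := modularFunctionFieldBar N) hgen v
  exact ⟨P, fun y hy => hP ⟨y, hy⟩⟩

end Places

/-- **`(Inj')` at `p` from the `E`-level statement `K1Modular`.** -/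
theorem injAt_of_k1Modular {ℓ : ℕ} (hℓ : ℓ.Prime) (hA : A.LiesOverPrime ℓ) (p : ℕ)
    (hK : K1Modular N A p) : InjAt N A p :=
  injAt_of_inputs N A p (dvrDescent A hℓ hA) (coefDescent N) (placeDescent N) hK

/-- **Function form of `(K1)` over `Q̄`** from `K1Modular` (for E4). -/
theorem fun_form_of_k1Modular {ℓ : ℕ} (hℓ : ℓ.Prime) (hA : A.LiesOverPrime ℓ) (p : ℕ)
    (hK : K1Modular N A p) (U W : LaurentSeries A)
    (hU : coeffMap A.subtype U ∈ modularFunctionFieldBar N)
    (hW : coeffMap A.subtype W ∈ modularFunctionFieldBar N)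
    (hred : coeffMap (IsLocalRing.residue A) U = coeffMap (IsLocalRing.residue A) W)
    (hne : coeffMap (IsLocalRing.residue A) U ≠ 0)
    (hdiv : ∀ P : Place Qb (modularFunctionFieldBar N),
      (p : ℤ) ∣ P.ord (⟨coeffMap A.subtype U, hU⟩ : modularFunctionFieldBar N) -
        P.ord (⟨coeffMap A.subtype W, hW⟩ : modularFunctionFieldBar N)) :
    ∃ (c : Qb) (H : modularFunctionFieldBar N), c ≠ 0 ∧
      (⟨coeffMap A.subtype U, hU⟩ : modularFunctionFieldBar N) =
        algebraMap Qb (modularFunctionFieldBar N) c * H ^ p *
          (⟨coeffMap A.subtype W, hW⟩ : modularFunctionFieldBar N) :=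
  fun_form_of_inputs N A p (dvrDescent A hℓ hA) (coefDescent N) (placeDescent N) hK U W hU hW
    hred hne hdiv

end Fermat.Agent.S18.K1Descent
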