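import Mathlib
import Fermat.Agent.S18.K1Defs
import Fermat.Agent.Lib.PlaceRes
import Fermat.Agent.Lib.Gamma0Index

/-!
# Level descent for `(K1)`

If `L ≤ L'` are function fields inside `E((q))` with `[L' : L]` prime to `p`, then the Kummer
statement `K1E` for `L'` implies `K1E` for `L`: places of `L'` restrict to places of `L`
(`Lib.PlaceRes`), and a `p`-th power in `L'` descends along the norm.

Used for `ℓ = 2, 3`, where the Model Theorem is applied at the auxiliary level `2N` resp. `3N`
(of degree `3` resp. `4` over level `N`).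
-/

set_option autoImplicit false

noncomputable section

namespace Fermat.Agent.S18.LevelDescent

open AlgebraicCurve Fermat.Agent.S18.K1Defs
open scoped IntermediateField

/-- Pure field theory: if `g ∈ K` is a constant times a `p`-th power in a finite extension `M` of
degree prime to `p`, it is a constant times a `p`-th power in `K`. -/
theorem exists_eq_mul_pow_of_coprime {E K M : Type*} [Field E] [Field K] [Field M] [Algebra E K]
    [Algebra K M] [Algebra E M] [IsScalarTower E K M] (p : ℕ)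
    (hpd : Nat.Coprime p (Module.finrank K M)) (g : K) (c : E) (H : M)
    (h : algebraMap K M g = algebraMap E M c * H ^ p) :
    ∃ (c' : E) (H' : K), g = algebraMap E K c' * H' ^ p := by
  by_cases hg : g = 0
  · exact ⟨0, 0, by rw [hg, map_zero, zero_mul]⟩
  set d := Module.finrank K M with hd
  have hnorm : g ^ d = algebraMap E K c ^ d * Algebra.norm K H ^ p := by
    have h1 := congrArg (Algebra.norm K) h
    rw [Algebra.norm_algebraMap, IsScalarTower.algebraMap_apply E K M, map_mul,
      Algebra.norm_algebraMap, map_pow] at h1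
    exact h1
  have hbez : (p : ℤ) * Nat.gcdA p d + (d : ℤ) * Nat.gcdB p d = 1 := by
    have := Nat.gcd_eq_gcd_ab p d
    rw [hpd.gcd_eq_one] at this
    exact_mod_cast this.symm
  set a := Nat.gcdA p d
  set b := Nat.gcdB p d
  refine ⟨c ^ ((d : ℤ) * b), Algebra.norm K H ^ b * g ^ a, ?_⟩
  have h1 : g ^ ((d : ℤ) * b) =
      algebraMap E K c ^ ((d : ℤ) * b) * Algebra.norm K H ^ ((p : ℤ) * b) := by
    rw [zpow_mul, zpow_natCast, hnorm, mul_zpow, ← zpow_natCast (algebraMap E K c), ← zpow_mul,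
      ← zpow_natCast (Algebra.norm K H), ← zpow_mul]
  have h2 : (Algebra.norm K H ^ b * g ^ a) ^ p =
      Algebra.norm K H ^ ((p : ℤ) * b) * g ^ ((p : ℤ) * a) := by
    rw [mul_pow, ← zpow_natCast (Algebra.norm K H ^ b), ← zpow_mul, ← zpow_natCast (g ^ a),
      ← zpow_mul, mul_comm b, mul_comm a]
  calc g = g ^ ((p : ℤ) * a + (d : ℤ) * b) := by rw [hbez, zpow_one]
    _ = g ^ ((p : ℤ) * a) * g ^ ((d : ℤ) * b) := zpow_add₀ hg _ _
    _ = algebraMap E K (c ^ ((d : ℤ) * b)) * (Algebra.norm K H ^ b * g ^ a) ^ p := by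
      rw [h1, h2, map_zpow₀]
      ring

variable {O E : Type*} [CommRing O] [IsDomain O] [IsDiscreteValuationRing O] [Field E]
  [Algebra O E] [FaithfulSMul O E]

/-- **Level descent for `K1E`.**  `L ≤ L'` inside `E((q))`, `[L' : L]` prime to `p`. -/
theorem k1E_of_le (L L' : IntermediateField E (LaurentSeries E)) (hLL' : L ≤ L') (p : ℕ)
    (hpd : letI := (IntermediateField.inclusion hLL').toRingHom.toAlgebra
      Nat.Coprime p (Module.finrank L L'))
    (hp1 : p ≠ 1)
    (h : K1E O E L' p) : K1E O E L p := by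
  letI : Algebra L L' := (IntermediateField.inclusion hLL').toRingHom.toAlgebra
  haveI : IsScalarTower E L L' := IsScalarTower.of_algebraMap_eq fun x => rfl
  have hd0 : Module.finrank L L' ≠ 0 := by
    intro h0
    rw [h0, Nat.coprime_zero_right] at hpd
    exact hp1 hpd
  haveI : Module.Finite L L' := Module.finite_of_finrank_pos (Nat.pos_of_ne_zero hd0)
  haveI : Algebra.IsAlgebraic L L' := Algebra.IsAlgebraic.of_finite L L'
  intro g hgL hgV hred hP
  obtain ⟨c, H, hH, hgc⟩ := h g (hLL' hgL) hgV hred (by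
    intro P'
    obtain ⟨P, e, -, he⟩ := Fermat.Agent.Lib.PlaceRes.exists_place_below (K := E) (L := L)
      (M := L') P'
    have h1 : P'.ord (⟨g, hLL' hgL⟩ : L') = e * P.ord (⟨g, hgL⟩ : L) := he ⟨g, hgL⟩
    rw [h1]
    exact Dvd.dvd.mul_left (hP P) _)
  have key : algebraMap L L' (⟨g, hgL⟩ : L) = algebraMap E L' c * (⟨H, hH⟩ : L') ^ p := by
    apply Subtype.ext
    show g = algebraMap E (LaurentSeries E) c * H ^ p
    rw [← Fermat.Agent.S18.Wiring.C_eq_algebraMap]
    exact hgc
  obtain ⟨c', H', hc'⟩ := exists_eq_mul_pow_of_coprime p hpd (⟨g, hgL⟩ : L) c (⟨H, hH⟩ : L') key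
  refine ⟨c', (H' : LaurentSeries E), H'.2, ?_⟩
  have h2 : g = algebraMap E (LaurentSeries E) c' * (H' : LaurentSeries E) ^ p :=
    congrArg (Subtype.val) hc'
  rw [Fermat.Agent.S18.Wiring.C_eq_algebraMap]
  exact h2

/-! ### Degrees in a tower of intermediate fields -/

/-- Tower law in the shape needed here: `[L' : φ(K)] = [L : K] [L' : L]` for `φ : L → L'`. -/
theorem finrank_map_mul {F L L' : Type*} [Field F] [Field L] [Field L'] [Algebra F L]
    [Algebra F L'] (φ : L →ₐ[F] L') (K : IntermediateField F L) :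
    letI := φ.toRingHom.toAlgebra
    Module.finrank (K.map φ) L' = Module.finrank K L * Module.finrank L L' := by
  letI : Algebra L L' := φ.toRingHom.toAlgebra
  letI : Algebra K L' := (φ.toRingHom.comp (algebraMap K L)).toAlgebra
  haveI : IsScalarTower K L L' := IsScalarTower.of_algebraMap_eq fun x => rfl
  rw [Module.finrank_mul_finrank K L L']
  symm
  refine Algebra.finrank_eq_of_equiv_equiv (IntermediateField.equivMap K φ).toRingEquiv
    (RingEquiv.refl L') ?_
  ext k
  rfl

/-- Tower law for a simple subextension: `[L' : F(x)] = [L : F(x)] [L' : L]`, `x ∈ L ≤ L'`. -/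
theorem finrank_adjoin_simple_mul {F Ω : Type*} [Field F] [Field Ω] [Algebra F Ω]
    (L L' : IntermediateField F Ω) (hLL' : L ≤ L') (x : L) :
    letI := (IntermediateField.inclusion hLL').toRingHom.toAlgebra
    Module.finrank F⟮IntermediateField.inclusion hLL' x⟯ L' =
      Module.finrank F⟮x⟯ L * Module.finrank L L' := by
  have h := finrank_map_mul (IntermediateField.inclusion hLL') F⟮x⟯
  have h2 : (F⟮x⟯).map (IntermediateField.inclusion hLL') =
      F⟮IntermediateField.inclusion hLL' x⟯ := by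
    rw [IntermediateField.adjoin_map, Set.image_singleton]
  rw [h2] at h
  exact h

/-- `k1E_of_le` with the coprimality hypothesis read off from degrees over `E(x)`. -/
theorem k1E_of_le_of_finrank (L L' : IntermediateField E (LaurentSeries E)) (hLL' : L ≤ L')
    (p : ℕ) (hp1 : p ≠ 1) (x : L) (n d : ℕ) (hn0 : n ≠ 0)
    (hn : Module.finrank E⟮x⟯ L = n)
    (hn' : Module.finrank E⟮IntermediateField.inclusion hLL' x⟯ L' = n * d)
    (hpd : Nat.Coprime p d) (h : K1E O E L' p) : K1E O E L p := by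
  refine k1E_of_le L L' hLL' p ?_ hp1 h
  have h1 := finrank_adjoin_simple_mul L L' hLL' x
  rw [hn, hn'] at h1
  rw [← Nat.eq_of_mul_eq_mul_left (Nat.pos_of_ne_zero hn0) h1]
  exact hpd

/-! ### The modular function fields -/

local notation "Qb" => AlgebraicClosure ℚ

theorem LE_mono {N N' : ℕ} [NeZero N] [NeZero N'] (hNN' : N ∣ N') (E : Type*) [Field E]
    [Algebra ℚ E] : LE N E ≤ LE N' E := by
  show ModularCurve.laurentBaseChange E _ ≤ ModularCurve.laurentBaseChange E _
  rw [ModularCurve.laurentBaseChange, IntermediateField.adjoin_le_iff]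
  rintro _ ⟨y, hy, rfl⟩
  exact ModularCurve.coeffEmb_mem_laurentBaseChange E (ModularCurve.full_degeneracy_le hNN' hy)

/-- **Level descent for `K1Modular`**: `N ∣ N'` and the degree of level `N'` over level `N`
prime to `p`. -/
theorem k1Modular_of_dvd {N N' : ℕ} [NeZero N] [NeZero N'] (hNN' : N ∣ N')
    (A : ValuationSubring Qb) (p : ℕ) (hp1 : p ≠ 1)
    (hdeg : ∀ (E : IntermediateField ℚ Qb) [FiniteDimensional ℚ E],
      letI := (IntermediateField.inclusion (LE_mono hNN' E)).toRingHom.toAlgebra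
      Nat.Coprime p (Module.finrank (LE N E) (LE N' E)))
    (h : K1Modular N' A p) : K1Modular N A p := by
  obtain ⟨S, hS⟩ := h
  exact ⟨S, fun E _ _ hSE =>
    k1E_of_le (LE N E) (LE N' E) (LE_mono hNN' E) p (hdeg E) hp1 (hS E hSE)⟩

/-- Level descent for `K1Modular`, degrees given over `E(x)` (`x = j`) as in `E2.Deg`. -/
theorem k1Modular_of_dvd_of_finrank {N N' : ℕ} [NeZero N] [NeZero N'] (hNN' : N ∣ N')
    (A : ValuationSubring Qb) (p : ℕ) (hp1 : p ≠ 1) (d : ℕ) (hpd : Nat.Coprime p d)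
    (hψ : ModularCurve.dedekindPsi N' = ModularCurve.dedekindPsi N * d)
    (hψ0 : ModularCurve.dedekindPsi N ≠ 0)
    (x : ∀ E : IntermediateField ℚ Qb, LE N E)
    (hn : ∀ (E : IntermediateField ℚ Qb) [FiniteDimensional ℚ E],
      Module.finrank E⟮x E⟯ (LE N E) = ModularCurve.dedekindPsi N)
    (hn' : ∀ (E : IntermediateField ℚ Qb) [FiniteDimensional ℚ E],
      Module.finrank E⟮IntermediateField.inclusion (LE_mono hNN' E) (x E)⟯ (LE N' E) =
        ModularCurve.dedekindPsi N')
    (h : K1Modular N' A p) : K1Modular N A p := by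
  obtain ⟨S, hS⟩ := h
  exact ⟨S, fun E _ _ hSE =>
    k1E_of_le_of_finrank (LE N E) (LE N' E) (LE_mono hNN' E) p hp1 (x E) _ d hψ0 (hn E)
      (by rw [hn' E, hψ]) hpd (hS E hSE)⟩

/-- `ψ(2N) = 3 ψ(N)` for odd `N`; `3` is prime to every prime `p ≠ 3`. -/
theorem dedekindPsi_mul_two {N : ℕ} (hN : N ≠ 0) (h2 : ¬ 2 ∣ N) :
    ModularCurve.dedekindPsi (N * 2) = ModularCurve.dedekindPsi N * 3 := by
  rw [Fermat.Agent.Lib.Gamma0Count.dedekindPsi_mul_prime_of_not_dvd N 2 hN Nat.prime_two h2,
    mul_comm]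

/-- `ψ(3N) = 4 ψ(N)` for `3 ∤ N`; `4` is prime to every odd prime `p`. -/
theorem dedekindPsi_mul_three {N : ℕ} (hN : N ≠ 0) (h3 : ¬ 3 ∣ N) :
    ModularCurve.dedekindPsi (N * 3) = ModularCurve.dedekindPsi N * 4 := by
  rw [Fermat.Agent.Lib.Gamma0Count.dedekindPsi_mul_prime_of_not_dvd N 3 hN Nat.prime_three h3,
    mul_comm]

theorem coprime_three {p : ℕ} (hp : p.Prime) (hp3 : p ≠ 3) : Nat.Coprime p 3 :=
  (Nat.coprime_primes hp Nat.prime_three).mpr hp3

theorem coprime_four {p : ℕ} (hp : p.Prime) (hp2 : p ≠ 2) : Nat.Coprime p 4 := by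
  have h : Nat.Coprime p (2 ^ 2) :=
    Nat.Coprime.pow_right 2 ((Nat.coprime_primes hp Nat.prime_two).mpr hp2)
  exact h

end Fermat.Agent.S18.LevelDescent
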