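import Mathlib
import Fermat.Agent.S18.K1Defs
import Fermat.Agent.S18.LevelDescent
import Fermat.Agent.S30.E2.DegreeL

/-!
# S18 / K1Aux: residue characteristic `2`, `3` via an auxiliary level

For `ℓ > 3` the Model Theorem is applied to `(LE N E, u = j)`.  For `ℓ = 3` (resp. `ℓ = 2`) it is
applied at a level `M` divisible by `2` (resp. `3`) with the Hauptmodul of level `2` (resp. `3`) as
base; when `2 ∤ N` (resp. `3 ∤ N`) one takes `M = 2N` (resp. `3N`) and descends to level `N` by the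
norm, the degree `ψ(2N)/ψ(N) = 3` (resp. `ψ(3N)/ψ(N) = 4`) being prime to `p ≠ ℓ`.

* `k1Modular_of_mul_two`, `k1Modular_of_mul_three` : the two descents.
* `k1Modular_of_cases` : the case split on `ℓ`.
-/

set_option autoImplicit false

noncomputable section

namespace Fermat.Agent.S18.K1Aux

open Fermat.Agent.S18.K1Defs Fermat.Agent.S18.LevelDescent Fermat.Agent.S30
open scoped IntermediateField

local notation "Qb" => AlgebraicClosure ℚ

/-- The element `j` of level `N` maps to the element `j` of level `N'` under the inclusion. -/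
theorem inclusion_jE {N N' : ℕ} [NeZero N] [NeZero N'] (hNN' : N ∣ N')
    (E : IntermediateField ℚ Qb) :
    IntermediateField.inclusion (LE_mono hNN' E) (E2Deg.jE N E) = E2Deg.jE N' E :=
  Subtype.ext rfl

/-- **Level descent** `N' → N` for `K1Modular`, `N ∣ N'`, `ψ(N') = ψ(N) d` with `d` prime to
`p`. -/
theorem k1Modular_of_dvd_of_psi {N N' : ℕ} [NeZero N] [NeZero N'] (hNN' : N ∣ N')
    (A : ValuationSubring Qb) (p : ℕ) (hp1 : p ≠ 1) (d : ℕ) (hpd : Nat.Coprime p d)
    (hψ : ModularCurve.dedekindPsi N' = ModularCurve.dedekindPsi N * d)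
    (h : K1Modular N' A p) : K1Modular N A p := by
  have hψ0 : ModularCurve.dedekindPsi N ≠ 0 := by
    intro h0
    have h1 := E2Deg.finrank_LE N (⊥ : IntermediateField ℚ Qb)
    rw [h0] at h1
    haveI := E2Deg.finite_LE N (⊥ : IntermediateField ℚ Qb)
    exact (Module.finrank_pos (R := (⊥ : IntermediateField ℚ Qb)⟮E2Deg.jE N ⊥⟯)
      (M := LE N (⊥ : IntermediateField ℚ Qb))).ne' h1
  refine k1Modular_of_dvd_of_finrank hNN' A p hp1 d hpd hψ hψ0 (fun E => E2Deg.jE N E)
    (fun E _ => E2Deg.finrank_LE N E) (fun E _ => ?_) h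
  rw [inclusion_jE hNN' E]
  exact E2Deg.finrank_LE N' E

/-- Descent from level `2N` to level `N` (`N` odd), exponent `p ≠ 3`. -/
theorem k1Modular_of_mul_two (N : ℕ) [NeZero N] (h2 : ¬ 2 ∣ N) (A : ValuationSubring Qb) (p : ℕ)
    (hp : p.Prime) (hp3 : p ≠ 3) (h : K1Modular (N * 2) A p) : K1Modular N A p :=
  k1Modular_of_dvd_of_psi (Dvd.intro _ rfl) A p hp.ne_one 3 (coprime_three hp hp3)
    (dedekindPsi_mul_two (NeZero.ne N) h2) h

/-- Descent from level `3N` to level `N` (`3 ∤ N`), exponent `p ≠ 2`. -/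
theorem k1Modular_of_mul_three (N : ℕ) [NeZero N] (h3 : ¬ 3 ∣ N) (A : ValuationSubring Qb) (p : ℕ)
    (hp : p.Prime) (hp2 : p ≠ 2) (h : K1Modular (N * 3) A p) : K1Modular N A p :=
  k1Modular_of_dvd_of_psi (Dvd.intro _ rfl) A p hp.ne_one 4 (coprime_four hp hp2)
    (dedekindPsi_mul_three (NeZero.ne N) h3) h

/-- **The case split on the residue characteristic.**  `hbig` : the Model Theorem with base `j`
(`ℓ > 3`); `htwo` : the Model Theorem with the level-`2` Hauptmodul as base, at every level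
divisible by `2` (`ℓ ≠ 2`); `hthree` : the same with the level-`3` Hauptmodul (`ℓ ≠ 3`). -/
theorem k1Modular_of_cases (N : ℕ) [NeZero N] {ℓ : ℕ} [Fact ℓ.Prime] (hℓN : ¬ ℓ ∣ N)
    (A : ValuationSubring Qb) (p : ℕ) (hp : p.Prime) (hpℓ : p ≠ ℓ)
    (hbig : 3 < ℓ → K1Modular N A p)
    (htwo : ∀ (M : ℕ) [NeZero M], 2 ∣ M → ¬ ℓ ∣ M → ℓ ≠ 2 → K1Modular M A p)
    (hthree : ∀ (M : ℕ) [NeZero M], 3 ∣ M → ¬ ℓ ∣ M → ℓ ≠ 3 → K1Modular M A p) :
    K1Modular N A p := by
  have hℓ : ℓ.Prime := Fact.out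
  rcases lt_or_ge 3 ℓ with h3 | h3
  · exact hbig h3
  have hℓ23 : ℓ = 2 ∨ ℓ = 3 := by
    have h2 := hℓ.two_le
    interval_cases ℓ
    · exact Or.inl rfl
    · exact Or.inr rfl
  rcases hℓ23 with rfl | rfl
  · -- `ℓ = 2`: base the level-`3` Hauptmodul
    by_cases h3N : 3 ∣ N
    · exact hthree N h3N hℓN (by norm_num)
    · haveI : NeZero (N * 3) := ⟨Nat.mul_ne_zero (NeZero.ne N) (by norm_num)⟩
      refine k1Modular_of_mul_three N h3N A p hp hpℓ
        (hthree (N * 3) (Dvd.intro_left _ rfl) ?_ (by norm_num))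
      intro hd
      rcases (Nat.Prime.dvd_mul Nat.prime_two).mp hd with hd | hd
      · exact hℓN hd
      · norm_num at hd
  · -- `ℓ = 3`: base the level-`2` Hauptmodul
    by_cases h2N : 2 ∣ N
    · exact htwo N h2N hℓN (by norm_num)
    · haveI : NeZero (N * 2) := ⟨Nat.mul_ne_zero (NeZero.ne N) (by norm_num)⟩
      refine k1Modular_of_mul_two N h2N A p hp hpℓ
        (htwo (N * 2) (Dvd.intro_left _ rfl) ?_ (by norm_num))
      intro hd
      rcases (Nat.Prime.dvd_mul Nat.prime_three).mp hd with hd | hd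
      · exact hℓN hd
      · norm_num at hd

end Fermat.Agent.S18.K1Aux
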