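import Mathlib
import Fermat.Agent.S24.FF.Dedekind

/-!
# Two generic inputs of the (K1) instantiation

* `algClosedIn_of_le_laurent` : a subfield of `E((q))` containing `E` has `E` algebraically
  closed in it (a Laurent series algebraic over `E` is constant).  The statement is the literal
  body of `S30.Model.AlgClosedIn E L`.
* `locPow_of_dvd_ord` : if `p ∣ ord_P g` at every place of `L / E`, then `g` is locally a `p`-th
  power times a unit at every closed point `f` of the affine `t`-line.  The statement is the
  literal body of `S30.Model.LocPow` at `f` (with `S30.Model.IsIntegralAt` unfolded), so it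
  applies by `exact` whatever the branch-set convention of the skeleton is.

This file deliberately does not import the Model skeleton.
-/

set_option autoImplicit false

namespace Fermat.Agent.S18.LocPow

open Polynomial

section Laurent

variable {E : Type*} [Field E]

theorem algebraMap_eq_C (c : E) : algebraMap E (LaurentSeries E) c = HahnSeries.C c := by
  rw [HahnSeries.algebraMap_apply', ← HahnSeries.ofPowerSeries_C]
  rfl

/-- A Laurent series integral over the constants is a power series. -/
theorem exists_powerSeries_of_isIntegral {y : LaurentSeries E} (hy : IsIntegral E y) :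
    ∃ s : PowerSeries E, HahnSeries.ofPowerSeries ℤ E s = y := by
  have h1 : IsIntegral (PowerSeries E) y := by
    obtain ⟨p, hpm, hp0⟩ := hy
    refine ⟨p.map (PowerSeries.C : E →+* PowerSeries E), hpm.map _, ?_⟩
    rw [Polynomial.eval₂_map]
    have hcomp : (algebraMap (PowerSeries E) (LaurentSeries E)).comp
        (PowerSeries.C : E →+* PowerSeries E) = algebraMap E (LaurentSeries E) := by
      ext c : 1
      rw [RingHom.comp_apply, LaurentSeries.coe_algebraMap, HahnSeries.ofPowerSeries_C,
        algebraMap_eq_C]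
    rw [hcomp]
    exact hp0
  obtain ⟨s, hs⟩ := IsIntegrallyClosed.isIntegral_iff.mp h1
  exact ⟨s, by rw [← hs, LaurentSeries.coe_algebraMap]⟩

/-- A Laurent series algebraic over the constants is constant. -/
theorem eq_C_of_isAlgebraic {y : LaurentSeries E} (hy : IsAlgebraic E y) :
    ∃ c : E, y = HahnSeries.C c := by
  obtain ⟨s, hs⟩ := exists_powerSeries_of_isIntegral hy.isIntegral
  refine ⟨PowerSeries.constantCoeff s, ?_⟩
  by_contra hne
  set w : LaurentSeries E := y - HahnSeries.C (PowerSeries.constantCoeff s) with hw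
  have hw0 : w ≠ 0 := sub_ne_zero.mpr hne
  have hwalg : IsAlgebraic E w := by
    rw [hw, ← algebraMap_eq_C]
    exact hy.sub (isAlgebraic_algebraMap (PowerSeries.constantCoeff s))
  obtain ⟨r, hr⟩ := exists_powerSeries_of_isIntegral hwalg.isIntegral
  obtain ⟨r', hr'⟩ := exists_powerSeries_of_isIntegral hwalg.inv.isIntegral
  have hmul : r * r' = 1 := by
    apply HahnSeries.ofPowerSeries_injective (Γ := ℤ) (R := E)
    rw [map_mul, hr, hr', map_one, mul_inv_cancel₀ hw0]
  have hr0 : PowerSeries.constantCoeff r = 0 := by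
    have h2 : HahnSeries.ofPowerSeries ℤ E r =
        HahnSeries.ofPowerSeries ℤ E (s - PowerSeries.C (PowerSeries.constantCoeff s)) := by
      rw [hr, hw, map_sub, hs, HahnSeries.ofPowerSeries_C]
    have h3 := HahnSeries.ofPowerSeries_injective h2
    rw [h3]
    simp
  have := congrArg PowerSeries.constantCoeff hmul
  rw [map_mul, hr0, zero_mul, map_one] at this
  exact zero_ne_one this

/-- **(AC)** `E` is algebraically closed in every intermediate field of `E((q)) / E`. -/
theorem algClosedIn_of_le_laurent (L : IntermediateField E (LaurentSeries E)) :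
    ∀ x : L, IsAlgebraic E x → x ∈ (algebraMap E L).range := by
  intro x hx
  have hx' : IsAlgebraic E (x : LaurentSeries E) := by
    have := hx.algebraMap (A := LaurentSeries E)
    exact this
  obtain ⟨c, hc⟩ := eq_C_of_isAlgebraic hx'
  refine ⟨c, ?_⟩
  apply Subtype.ext
  rw [hc, ← algebraMap_eq_C]
  rfl

end Laurent

section Dedekind

open IsDedekindDomain

variable {B L : Type*} [CommRing B] [IsDedekindDomain B] [Field L] [Algebra B L]
  [IsFractionRing B L]

/-- Elements of a Dedekind domain with prescribed orders at finitely many primes. -/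
theorem exists_intValuation_eq (T : Finset (HeightOneSpectrum B))
    (m : HeightOneSpectrum B → ℕ) :
    ∃ a : B, a ≠ 0 ∧ ∀ w ∈ T, w.intValuation a = WithZero.exp (-(m w : ℤ)) := by
  classical
  choose ϖ hϖ using fun w : HeightOneSpectrum B => w.intValuation_exists_uniformizer
  obtain ⟨y, hy⟩ := IsDedekindDomain.exists_forall_sub_mem_ideal (s := T)
    (fun w => w.asIdeal) (fun w => m w + 1) (fun w _ => w.prime)
    (fun w _ w' _ h h' => h (HeightOneSpectrum.ext h')) (fun w => ϖ w.1 ^ m w.1)
  have key : ∀ w ∈ T, w.intValuation y = WithZero.exp (-(m w : ℤ)) := by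
    intro w hw
    have h1 : w.intValuation (y - ϖ w ^ m w) ≤ WithZero.exp (-((m w + 1 : ℕ) : ℤ)) := by
      rw [HeightOneSpectrum.intValuation_le_pow_iff_mem]
      exact hy w hw
    have h2 : w.intValuation (ϖ w ^ m w) = WithZero.exp (-(m w : ℤ)) := by
      rw [map_pow, hϖ w, ← WithZero.exp_nsmul]
      simp
    have h3 : w.intValuation (y - ϖ w ^ m w) < w.intValuation (ϖ w ^ m w) := by
      rw [h2]
      refine lt_of_le_of_lt h1 ?_
      rw [WithZero.exp_lt_exp]
      push_cast
      omega
    have h4 : y = (y - ϖ w ^ m w) + ϖ w ^ m w := by ring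
    rw [h4, (w.intValuation).map_add_eq_of_lt_right h3, h2]
  by_cases hy0 : y = 0
  · refine ⟨1, one_ne_zero, fun w hw => ?_⟩
    have := key w hw
    rw [hy0, map_zero] at this
    exact absurd this.symm WithZero.exp_ne_zero
  · exact ⟨y, hy0, key⟩

/-- **Weak approximation** in the fraction field of a Dedekind domain: prescribed orders at
finitely many primes. -/
theorem exists_valuation_eq (T : Finset (HeightOneSpectrum B)) (n : HeightOneSpectrum B → ℤ) :
    ∃ τ : L, τ ≠ 0 ∧ ∀ w ∈ T, w.valuation L τ = WithZero.exp (-(n w)) := by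
  obtain ⟨a, ha0, ha⟩ := exists_intValuation_eq T (fun w => (n w).toNat)
  obtain ⟨b, hb0, hb⟩ := exists_intValuation_eq T (fun w => (-(n w)).toNat)
  have ha' : algebraMap B L a ≠ 0 := by
    simpa using (IsFractionRing.injective B L).ne ha0
  have hb' : algebraMap B L b ≠ 0 := by
    simpa using (IsFractionRing.injective B L).ne hb0
  refine ⟨algebraMap B L a / algebraMap B L b, div_ne_zero ha' hb', ?_⟩
  intro w hw
  rw [map_div₀, HeightOneSpectrum.valuation_of_algebraMap,
    HeightOneSpectrum.valuation_of_algebraMap, ha w hw, hb w hw, ← WithZero.exp_sub]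
  congr 1
  omega

/-- If `z` is integral at every prime of `B` containing `q`, then some `s ≡ 1 mod q` of the base
ring `D` (over which `B` is finite) multiplies `z` into `B`. -/
theorem exists_smul_mem {D : Type*} [CommRing D] [Algebra D B] [Module.Finite D B]
    [Algebra D L] [IsScalarTower D B L] (q : D) (z : L)
    (hz : ∀ w : HeightOneSpectrum B, algebraMap D B q ∈ w.asIdeal → w.valuation L z ≤ 1) :
    ∃ s : D, s - 1 ∈ Ideal.span {q} ∧ ∃ b : B, algebraMap D L s * z = algebraMap B L b := by
  -- the denominator ideal of `z`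
  let J : Ideal B :=
    { carrier := {b | ∃ c : B, algebraMap B L b * z = algebraMap B L c}
      add_mem' := by
        rintro x y ⟨c, hc⟩ ⟨d, hd⟩
        exact ⟨c + d, by rw [map_add, add_mul, hc, hd, map_add]⟩
      zero_mem' := ⟨0, by simp⟩
      smul_mem' := by
        rintro r x ⟨c, hc⟩
        exact ⟨r * c, by rw [smul_eq_mul, map_mul, mul_assoc, hc, map_mul]⟩ }
  have hJmem : ∀ b : B, b ∈ J ↔ ∃ c : B, algebraMap B L b * z = algebraMap B L c :=
    fun b => Iff.rfl
  have hJ : J ⊔ Ideal.span {algebraMap D B q} = ⊤ := by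
    by_contra hne
    obtain ⟨m, hm, hle⟩ := Ideal.exists_le_maximal _ hne
    have hJm : J ≤ m := le_sup_left.trans hle
    have hqm : algebraMap D B q ∈ m :=
      hle (Ideal.mem_sup_right (Ideal.mem_span_singleton_self _))
    have hmbot : m ≠ ⊥ := by
      intro hbot
      obtain ⟨a, b, hb, rfl⟩ := IsFractionRing.div_surjective (A := B) z
      have hb0 : algebraMap B L b ≠ 0 := by
        simpa using (IsFractionRing.injective B L).ne (nonZeroDivisors.ne_zero hb)
      have hbJ : b ∈ J := (hJmem b).mpr ⟨a, by field_simp⟩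
      have hbm : b ∈ m := hJm hbJ
      rw [hbot, Ideal.mem_bot] at hbm
      exact (nonZeroDivisors.ne_zero hb) hbm
    let w : HeightOneSpectrum B := ⟨m, hm.isPrime, hmbot⟩
    obtain ⟨n, d, hnd⟩ := w.exists_primeCompl_mul_eq_of_integer z (hz w hqm)
    have hdJ : (d : B) ∈ J := (hJmem _).mpr ⟨n, by rw [mul_comm, hnd]⟩
    exact d.2 (hJm hdJ)
  -- Nakayama on the `D`-module `B ⧸ J`
  have hfin : Module.Finite D (B ⧸ J) :=
    Module.Finite.of_surjective ((Ideal.Quotient.mkₐ D J).toLinearMap)
      (Ideal.Quotient.mkₐ_surjective D J)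
  have hle : (⊤ : Submodule D (B ⧸ J)) ≤ Ideal.span {q} • (⊤ : Submodule D (B ⧸ J)) := by
    intro x _
    obtain ⟨b, rfl⟩ := Ideal.Quotient.mk_surjective x
    have h1 : (1 : B) ∈ J ⊔ Ideal.span {algebraMap D B q} := by rw [hJ]; trivial
    obtain ⟨j, hj, k, hk, hjk⟩ := Submodule.mem_sup.mp h1
    obtain ⟨c, rfl⟩ := Ideal.mem_span_singleton'.mp hk
    have h2 : Ideal.Quotient.mk J b = q • Ideal.Quotient.mk J (c * b) := by
      rw [Algebra.smul_def]
      show Ideal.Quotient.mk J b =
        Ideal.Quotient.mk J (algebraMap D B q) * Ideal.Quotient.mk J (c * b)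
      rw [← map_mul, Ideal.Quotient.eq]
      have : b - algebraMap D B q * (c * b) = j * b := by
        have : b = (j + c * algebraMap D B q) * b := by rw [hjk, one_mul]
        linear_combination this
      rw [this]
      exact J.mul_mem_right _ hj
    rw [h2]
    exact Submodule.smul_mem_smul (Ideal.mem_span_singleton_self q) Submodule.mem_top
  obtain ⟨r, hr1, hr⟩ := Submodule.exists_sub_one_mem_and_smul_eq_zero_of_fg_of_le_smul
    (Ideal.span {q}) (⊤ : Submodule D (B ⧸ J)) hfin.fg_top hle
  have h3 := hr (Ideal.Quotient.mk J 1) Submodule.mem_top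
  rw [Algebra.smul_def] at h3
  replace h3 : Ideal.Quotient.mk J (algebraMap D B r) * Ideal.Quotient.mk J 1 = 0 := h3
  rw [← map_mul, mul_one, Ideal.Quotient.eq_zero_iff_mem] at h3
  obtain ⟨c, hc⟩ := (hJmem _).mp h3
  exact ⟨r, hr1, c, by rw [IsScalarTower.algebraMap_apply D B L, hc]⟩

end Dedekind

section Main

open AlgebraicCurve IsDedekindDomain WithZero IntermediateField
open scoped IntermediateField.algebraAdjoinAdjoin
open Fermat.Agent.S24.FF

variable {E L : Type*} [Field E] [CharZero E] [Field L] [Algebra E L]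

/-- **(LP)** If `p ∣ ord_P g` at every place `P` of `L / E`, then at every closed point `f` of the
affine `t`-line `g` is a `p`-th power times a unit (literal body of `Model.LocPow` at `f`). -/
theorem locPow_of_dvd_ord (t : L) (ht : Transcendental E t)
    [FiniteDimensional (IntermediateField.adjoin E {t}) L] (p : ℕ) (g : L) (hg : g ≠ 0)
    (h : ∀ P : Place E L, (p : ℤ) ∣ P.ord g) :
    ∀ f : E[X], Irreducible f → ∃ τ : L, τ ≠ 0 ∧
      (∃ s : L, s ∈ Algebra.adjoin E {t} ∧
        (∀ c : L, c ∈ Algebra.adjoin E {t} → s ≠ aeval t f * c) ∧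
        IsIntegral (Algebra.adjoin E {t}) (s * (g / τ ^ p))) ∧
      (∃ s : L, s ∈ Algebra.adjoin E {t} ∧
        (∀ c : L, c ∈ Algebra.adjoin E {t} → s ≠ aeval t f * c) ∧
        IsIntegral (Algebra.adjoin E {t}) (s * (τ ^ p / g))) := by
  classical
  have : Fact (Transcendental E t) := ⟨ht⟩
  have : IsPrincipalIdealRing (Algebra.adjoin E {t}) := polyRing_isPrincipalIdealRing E t ht
  have : IsDedekindDomain (integralClosure (Algebra.adjoin E {t}) L) :=
    integralClosure.isDedekindDomain (Algebra.adjoin E {t}) E⟮t⟯ L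
  have : IsFractionRing (integralClosure (Algebra.adjoin E {t}) L) L :=
    integralClosure.isFractionRing_of_finite_extension E⟮t⟯ L
  have : Module.Finite (Algebra.adjoin E {t}) (integralClosure (Algebra.adjoin E {t}) L) :=
    IsIntegralClosure.finite (Algebra.adjoin E {t}) E⟮t⟯ L _
  have : IsScalarTower E (integralClosure (Algebra.adjoin E {t}) L) L :=
    IsScalarTower.of_algebraMap_eq (fun c => by simp [Algebra.algebraMap_eq_smul_one])
  intro f hf
  -- the element `f(t)` of `D = E[t]`
  set qD : Algebra.adjoin E {t} := Polynomial.algEquivOfTranscendental E t ht f with hqDdef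
  have hqD : (qD : L) = aeval t f := by
    rw [hqDdef, Polynomial.algEquivOfTranscendental_apply, Polynomial.aeval_subalgebra_coe]
  have hqunit : ¬ IsUnit qD := by
    intro hu
    apply hf.not_isUnit
    have := hu.map (Polynomial.algEquivOfTranscendental E t ht).symm
    rwa [hqDdef, AlgEquiv.symm_apply_apply] at this
  have hqD0 : qD ≠ 0 := by
    intro h0
    apply hf.ne_zero
    have := congrArg (Polynomial.algEquivOfTranscendental E t ht).symm h0
    rwa [hqDdef, AlgEquiv.symm_apply_apply, map_zero] at this
  have hqB0 : algebraMap (Algebra.adjoin E {t}) (integralClosure (Algebra.adjoin E {t}) L) qD ≠ 0 := by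
    intro h0
    apply hqD0
    apply Subtype.ext
    have := congrArg Subtype.val h0
    exact this
  -- the orders of `g` at the primes of `B`
  have hval : ∀ w : HeightOneSpectrum (integralClosure (Algebra.adjoin E {t}) L),
      ∃ n : ℤ, w.valuation L g = exp (-((p : ℤ) * n)) := by
    intro w
    obtain ⟨n, hn⟩ := h (Place.ofHeightOneSpectrum (K := E) (F := L) w)
    rw [ord_ofHeightOneSpectrum (K := E) w hg] at hn
    refine ⟨n, ?_⟩
    have h0 : w.valuation L g ≠ 0 := (Valuation.ne_zero_iff _).mpr hg
    rw [← WithZero.exp_log h0]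
    congr 1
    omega
  choose n hn using hval
  -- the primes over `f(t)`
  have hfin : {w : HeightOneSpectrum (integralClosure (Algebra.adjoin E {t}) L) |
      w.asIdeal ∣ Ideal.span {algebraMap (Algebra.adjoin E {t})
        (integralClosure (Algebra.adjoin E {t}) L) qD}}.Finite :=
    Ideal.finite_factors (by
      rw [Ne, Ideal.zero_eq_bot, Ideal.span_singleton_eq_bot]
      exact hqB0)
  obtain ⟨τ, hτ0, hτ⟩ := exists_valuation_eq (L := L) hfin.toFinset n
  have hτ' : ∀ w : HeightOneSpectrum (integralClosure (Algebra.adjoin E {t}) L),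
      algebraMap (Algebra.adjoin E {t}) (integralClosure (Algebra.adjoin E {t}) L) qD ∈ w.asIdeal →
      w.valuation L τ = exp (-(n w)) := by
    intro w hw
    apply hτ
    rw [Set.Finite.mem_toFinset, Set.mem_ofPred_eq, Ideal.dvd_span_singleton]
    exact hw
  have hz1 : ∀ w : HeightOneSpectrum (integralClosure (Algebra.adjoin E {t}) L),
      algebraMap (Algebra.adjoin E {t}) (integralClosure (Algebra.adjoin E {t}) L) qD ∈ w.asIdeal →
      w.valuation L (g / τ ^ p) = 1 := by
    intro w hw
    rw [map_div₀, map_pow, hτ' w hw, hn w, ← WithZero.exp_nsmul, ← WithZero.exp_sub,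
      ← WithZero.exp_zero]
    congr 1
    simp
  have hz2 : ∀ w : HeightOneSpectrum (integralClosure (Algebra.adjoin E {t}) L),
      algebraMap (Algebra.adjoin E {t}) (integralClosure (Algebra.adjoin E {t}) L) qD ∈ w.asIdeal →
      w.valuation L (τ ^ p / g) = 1 := by
    intro w hw
    rw [map_div₀, map_pow, hτ' w hw, hn w, ← WithZero.exp_nsmul, ← WithZero.exp_sub,
      ← WithZero.exp_zero]
    congr 1
    simp
  -- integrality at `f(t)`
  have key : ∀ z : L, (∀ w : HeightOneSpectrum (integralClosure (Algebra.adjoin E {t}) L),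
      algebraMap (Algebra.adjoin E {t}) (integralClosure (Algebra.adjoin E {t}) L) qD ∈ w.asIdeal →
      w.valuation L z ≤ 1) → ∃ s : L, s ∈ Algebra.adjoin E {t} ∧
        (∀ c : L, c ∈ Algebra.adjoin E {t} → s ≠ aeval t f * c) ∧
        IsIntegral (Algebra.adjoin E {t}) (s * z) := by
    intro z hz
    obtain ⟨s, hs1, b, hb⟩ := exists_smul_mem
      (B := integralClosure (Algebra.adjoin E {t}) L) (L := L) qD z hz
    refine ⟨(s : L), s.2, ?_, ?_⟩
    · intro c hc hsc
      have hs : s = qD * ⟨c, hc⟩ := by
        apply Subtype.ext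
        rw [hsc, ← hqD]
        rfl
      have h2 : s ∈ Ideal.span {qD} := by
        rw [hs]
        exact Ideal.mul_mem_right _ _ (Ideal.mem_span_singleton_self _)
      have h1 : (1 : Algebra.adjoin E {t}) ∈ Ideal.span {qD} := by
        have := (Ideal.span {qD}).sub_mem h2 hs1
        simpa using this
      exact hqunit (Ideal.span_singleton_eq_top.mp ((Ideal.eq_top_iff_one _).mpr h1))
    · have h3 : (s : L) * z = (b : L) := hb
      rw [h3]
      exact b.2
  exact ⟨τ, hτ0, key _ (fun w hw => (hz1 w hw).le), key _ (fun w hw => (hz2 w hw).le)⟩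

end Main

end Fermat.Agent.S18.LocPow
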