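import Mathlib
import Fermat.Agent.S18.K1Defs
import Fermat.Agent.S18.K1Main.Generic
import Fermat.Agent.S18.K1Main.JBase
import Fermat.Agent.S18.K1Main.Units
import Fermat.Agent.S18.K1Main.Base
import Fermat.Agent.S30.GaussDescent
import Fermat.Agent.S30.E2.Horiz

/-!
# S18 / K1Main: `K1Modular N A p` from the inputs of the Model Theorem (residue char. `> 3`)

* `K1Main/Units.lean` : units and roots of unity of `O_E = A ∩ E`.
* `K1Main/Base.lean` : the same assembly for an arbitrary base `u` (`BaseInputs`).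
* `k1Modular_of_jInputs` : the assembly
  `(∃ S₀, ∀ E ⊇ S₀ number field with O_E a DVR, JInputsC N O_E E p) ⇒ K1Modular N A p`.
-/

set_option autoImplicit false

open ModularCurve AlgebraicCurve Polynomial

noncomputable section

namespace Fermat.Agent.S18.K1Main

open Fermat.Agent.S18.K1Defs Fermat.Agent.S30

local notation "Qb" => AlgebraicClosure ℚ

variable (A : ValuationSubring Qb) (E : IntermediateField ℚ Qb)

/-- **`K1Modular N A p` from the inputs of the Model Theorem** (base `u = j`), for a valuation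
ring `A` of `ℚ̄` over a prime `ℓ > 3` and a prime `p ≠ ℓ`. -/
theorem k1Modular_of_jInputs (N : ℕ) [NeZero N] {ℓ : ℕ} [Fact ℓ.Prime]
    (hA : A.LiesOverPrime ℓ) (hℓ : 3 < ℓ) (p : ℕ) (hp : p.Prime) (hpℓ : p ≠ ℓ)
    (h : ∃ S₀ : Finset Qb, ∀ (E : IntermediateField ℚ Qb) [FiniteDimensional ℚ E]
      [IsDiscreteValuationRing (OE A E)], (∀ s ∈ S₀, s ∈ E) → JInputsC N (OE A E) E p) :
    K1Modular N A p := by
  classical
  obtain ⟨S₀, h⟩ := h
  have hℓp : ℓ.Prime := Fact.out
  have : NeZero (p : Qb) := ⟨Nat.cast_ne_zero.mpr hp.ne_zero⟩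
  obtain ⟨z, hz⟩ := HasEnoughRootsOfUnity.exists_primitiveRoot Qb p
  refine ⟨insert z S₀, fun E _ _ hE => ?_⟩
  have hzE : z ∈ E := hE z (Finset.mem_insert_self _ _)
  obtain ⟨ζ, hζ⟩ := exists_primitiveRoot_OE A E hp.pos hz hzE
  have hpO : IsUnit ((p : ℕ) : OE A E) :=
    isUnit_natCast_OE A E hA p ((Nat.coprime_primes hp hℓp).mpr hpℓ)
  have h1728 : IsUnit (1728 : OE A E) := by
    have hc : Nat.Coprime 1728 ℓ := by
      rw [Nat.coprime_comm, Nat.Prime.coprime_iff_not_dvd hℓp]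
      intro hd
      have h1 : ℓ ∣ 2 ^ 6 * 3 ^ 3 := by norm_num; exact hd
      rcases (Nat.Prime.dvd_mul hℓp).mp h1 with h2 | h2
      · have := Nat.le_of_dvd (by norm_num) (hℓp.dvd_of_dvd_pow h2)
        omega
      · have := Nat.le_of_dvd (by norm_num) (hℓp.dvd_of_dvd_pow h2)
        omega
    have := isUnit_natCast_OE A E hA 1728 hc
    exact_mod_cast this
  exact k1E_of_jInputs N
    (fun x hx => GaussDescent.mem_fracField_of_mem_laurentBaseChange A E
      (modularFunctionFieldFull N) (GaussDescent.intFrac_of_mem_full N) hx)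
    h1728 p hp hpO ζ hζ (h E (fun s hs => hE s (Finset.mem_insert_of_mem hs)))

/-- The two inputs of the Model Theorem for `(LE N E, j)` which are still open after
`E2.Horiz` (hypothesis (ii)) and `S18.LocPow`: finiteness over `E(j)` and hypothesis (i), for the
canonical `O`-algebra structure `algebraOL`. -/
def FinGaussC (N : ℕ) [NeZero N] (O E : Type) [CommRing O] [Field E] [Algebra O E]
    [Algebra ℚ E] : Prop :=
  letI := algebraOL O E (LE N E)
  FiniteDimensional (IntermediateField.adjoin E {jE N E}) (LE N E) ∧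
    ∀ π : O, Irreducible π → Model.GaussUnram (E := E) π (jE N E)

/-- `1728` is a unit of `O_E` when `A` lies over a prime `ℓ > 3`. -/
theorem isUnit_1728_OE {ℓ : ℕ} (hℓp : ℓ.Prime) (hA : A.LiesOverPrime ℓ) (hℓ : 3 < ℓ) :
    IsUnit (1728 : OE A E) := by
  have hc : Nat.Coprime 1728 ℓ := by
    rw [Nat.coprime_comm, Nat.Prime.coprime_iff_not_dvd hℓp]
    intro hd
    have h1 : ℓ ∣ 2 ^ 6 * 3 ^ 3 := by norm_num; exact hd
    rcases (Nat.Prime.dvd_mul hℓp).mp h1 with h2 | h2
    · have := Nat.le_of_dvd (by norm_num) (hℓp.dvd_of_dvd_pow h2)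
      omega
    · have := Nat.le_of_dvd (by norm_num) (hℓp.dvd_of_dvd_pow h2)
      omega
  have := isUnit_natCast_OE A E hA 1728 hc
  exact_mod_cast this

/-- **`K1Modular N A p` for residue characteristic `ℓ > 3`**, from finiteness of `LE N E / E(j)`
and hypothesis (i) (`GaussUnram`) over all sufficiently large number fields `E ⊆ ℚ̄`.
Hypothesis (ii) is `E2.Horiz.horizUnram_of_coe`, the place translation is `S18.LocPow`. -/
theorem k1Modular_of_finGauss (N : ℕ) [NeZero N] {ℓ : ℕ} [Fact ℓ.Prime]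
    (hA : A.LiesOverPrime ℓ) (hℓ : 3 < ℓ) (p : ℕ) (hp : p.Prime) (hpℓ : p ≠ ℓ)
    (h : ∃ S₀ : Finset Qb, ∀ (E : IntermediateField ℚ Qb) [FiniteDimensional ℚ E]
      [IsDiscreteValuationRing (OE A E)], (∀ s ∈ S₀, s ∈ E) → FinGaussC N (OE A E) E) :
    K1Modular N A p := by
  obtain ⟨S₀, h⟩ := h
  refine k1Modular_of_baseInputs A N hA p hp hpℓ ⟨S₀, fun E _ _ hE => ?_⟩
  obtain ⟨hfin, hG⟩ := h E hE
  exact baseInputsC_of_j N (isUnit_1728_OE A E Fact.out hA hℓ) hfin hG
    (fun S h0 h1 => Fermat.Agent.S30.E2.Horiz.horizUnram_of_coe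
      (Fermat.Agent.S24.Theta.iotaBar.comp (algebraMap E Qb)) N (jE N E) rfl S
      ⟨0, h0, map_zero _⟩ ⟨1728, h1, map_ofNat _ _⟩)

end Fermat.Agent.S18.K1Main
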