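import Mathlib
import Fermat.Agent.S18.K1Defs
import Fermat.Agent.S18.K1Main
import Fermat.Agent.S18.K1Main.Gt3
import Fermat.Agent.S18.K1Aux
import Fermat.Agent.S18.LocPow
import Fermat.Agent.S30.Haupt.K1
import Fermat.Agent.S30.E2.Horiz

/-!
# S18 / K1Final: `K1Modular N A p` for every valuation ring `A` of `ℚ̄` over a prime `ℓ ∤ N`

* `jInputsC_exists` : the `u = j` inputs of the Model Theorem at every level `M` prime to `ℓ`
  (no hypothesis on `ℓ`), over every number field containing a primitive `M`-th root of unity.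
* `k1Modular` : the Kummer statement `K1Defs.K1Modular N A p` for `ℓ ∤ N`, `p ≠ ℓ` prime:
  `ℓ > 3` by `K1Main.k1Modular_gt3` (base `j`), `ℓ = 3` (resp. `ℓ = 2`) by the Hauptmodul of
  level `2` (resp. `3`) at the level `N` or `2N` (resp. `3N`) and the descent of `K1Aux`.
-/

set_option autoImplicit false
set_option linter.style.haveILetI false
set_option synthInstance.maxHeartbeats 400000
set_option maxHeartbeats 1000000

open ModularCurve AlgebraicCurve Polynomial

noncomputable section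

namespace Fermat.Agent.S18.K1Final

open Fermat.Agent.S18.K1Defs Fermat.Agent.S18.K1Main Fermat.Agent.S30

local notation "Qb" => AlgebraicClosure ℚ

/-- **The `u = j` inputs of the Model Theorem** at every level `M` prime to the residue
characteristic `ℓ` of `A`. -/
theorem jInputsC_exists (A : ValuationSubring Qb) (M : ℕ) [NeZero M] {ℓ : ℕ} [Fact ℓ.Prime]
    (hℓM : ¬ ℓ ∣ M) (hA : A.LiesOverPrime ℓ) (p : ℕ) :
    ∃ S₀ : Finset Qb, ∀ (E : IntermediateField ℚ Qb) [FiniteDimensional ℚ E]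
      [IsDiscreteValuationRing (OE A E)], (∀ s ∈ S₀, s ∈ E) → JInputsC M (OE A E) E p := by
  classical
  have hℓp : ℓ.Prime := Fact.out
  have : NeZero (M : Qb) := ⟨Nat.cast_ne_zero.mpr (NeZero.ne M)⟩
  obtain ⟨z, hz⟩ := HasEnoughRootsOfUnity.exists_primitiveRoot Qb M
  refine ⟨{z}, fun E _ _ hE => ?_⟩
  have hzE : z ∈ E := hE z (Finset.mem_singleton_self z)
  obtain ⟨ζ₀, hζ₀⟩ := exists_primitiveRoot_OE A E (Nat.pos_of_ne_zero (NeZero.ne M)) hz hzE
  have hM : IsUnit ((M : ℕ) : OE A E) :=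
    isUnit_natCast_OE A E hA M
      (Nat.Coprime.symm ((Nat.Prime.coprime_iff_not_dvd hℓp).mpr hℓM))
  have hFG : FinGaussC M (OE A E) E :=
    finGaussC_of M (Fermat.Agent.S24.Theta.iotaBar.comp (algebraMap E Qb)) hζ₀ hM
  letI := algebraOL (OE A E) E (LE M E)
  haveI := isScalarTower_OL (OE A E) E (LE M E)
  obtain ⟨hfin, hG⟩ := hFG
  haveI := hfin
  have hT : Transcendental E (jE M E) := Fermat.Agent.S30.Haupt.K1.transcendental_jE M E
  exact ⟨hfin, hG,
    fun S h0 h1 => Fermat.Agent.S30.E2.Horiz.horizUnram_of_coe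
      (Fermat.Agent.S24.Theta.iotaBar.comp (algebraMap E Qb)) M (jE M E) rfl S
      ⟨0, h0, map_zero _⟩ ⟨1728, h1, map_ofNat _ _⟩,
    fun g hg hord => Fermat.Agent.S18.LocPow.locPow_of_dvd_ord (jE M E) hT p g hg hord⟩

/-- **`(K1)` for the modular function field of level `N`**, for every valuation ring `A` of `ℚ̄`
over a prime `ℓ ∤ N` and every prime exponent `p ≠ ℓ`. -/
theorem k1Modular (N : ℕ) [NeZero N] {ℓ : ℕ} [Fact ℓ.Prime] (hℓN : ¬ ℓ ∣ N)
    (A : ValuationSubring Qb) (hA : A.LiesOverPrime ℓ) (p : ℕ) (hp : p.Prime) (hpℓ : p ≠ ℓ) :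
    K1Modular N A p :=
  Fermat.Agent.S18.K1Aux.k1Modular_of_cases N hℓN A p hp hpℓ
    (fun h3 => k1Modular_gt3 A N hℓN hA h3 p hp hpℓ)
    (fun M _ h2M hℓM hℓ2 => Fermat.Agent.S30.Haupt.K1.k1Modular_of_jInputs_two A M h2M hA hℓ2
      p hp hpℓ (jInputsC_exists A M hℓM hA p))
    (fun M _ h3M hℓM hℓ3 => Fermat.Agent.S30.Haupt.K1.k1Modular_of_jInputs_three A M h3M hA hℓ3
      p hp hpℓ (jInputsC_exists A M hℓM hA p))

end Fermat.Agent.S18.K1Final
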