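/-
S18 / Program E: the literal adapter of `Lib.PlaceExt.exists_place_above` for the modular
function fields (helper139).

`E ⊆ Q̄` an intermediate field, `L_E = laurentBaseChange E F₀ ⊆ E((q))`,
`L_Q̄ = laurentBaseChange Q̄ F₀ ⊆ Q̄((q))`, `up = coeffMap (algebraMap E Q̄)`.
Every place of `L_E / E` has a place of `L_Q̄ / Q̄` above it with the same orders.
-/
import Mathlib
import Fermat.Prelude.Def_ModularCurve_LaurentCoeff
import Fermat.Prelude.Def_AlgebraicCurve_DivisorClassGroup
import Fermat.Agent.Lib.PlaceExt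
import Fermat.Agent.S30.GaussDescent

set_option autoImplicit false
set_option synthInstance.maxHeartbeats 400000
set_option maxHeartbeats 1000000

noncomputable section

namespace Fermat.Agent.S18.PlaceUp

open ModularCurve AlgebraicCurve Fermat.Agent.S30.GaussDescent

local notation "Qb" => AlgebraicClosure ℚ

variable (E : IntermediateField ℚ Qb) (F₀ : IntermediateField ℚ (LaurentSeries ℚ))

/-- Extension of coefficients as a ring hom `L_E → L_Q̄`. -/
def upHom : ↥(laurentBaseChange E F₀) →+* ↥(laurentBaseChange Qb F₀) where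
  toFun x := ⟨up E x.1, up_mem E F₀ x.2⟩
  map_one' := Subtype.ext (map_one (up E))
  map_mul' x y := Subtype.ext (map_mul (up E) x.1 y.1)
  map_zero' := Subtype.ext (map_zero (up E))
  map_add' x y := Subtype.ext (map_add (up E) x.1 y.1)

@[simp]
theorem coe_upHom (x : ↥(laurentBaseChange E F₀)) :
    ((upHom E F₀ x : ↥(laurentBaseChange Qb F₀)) : LaurentSeries Qb) = up E x.1 := rfl

theorem isAlgebraic_E_Qb : Algebra.IsAlgebraic E Qb := by
  have := isAlgebraic_rat_Qb
  exact Algebra.IsAlgebraic.tower_top (K := ℚ) E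

/-- **Places extend along the constant field extension `E ⊆ Q̄`, without ramification.** -/
theorem exists_place_up (P : Place E (laurentBaseChange E F₀)) :
    ∃ P' : Place Qb (laurentBaseChange Qb F₀),
      ∀ x : ↥(laurentBaseChange E F₀), P'.ord (upHom E F₀ x) = P.ord x := by
  let _ : Algebra ↥(laurentBaseChange E F₀) ↥(laurentBaseChange Qb F₀) := (upHom E F₀).toAlgebra
  have : IsScalarTower E ↥(laurentBaseChange E F₀) ↥(laurentBaseChange Qb F₀) :=
    IsScalarTower.of_algebraMap_eq (fun e => Subtype.ext (up_algebraMap E e).symm)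
  have := isAlgebraic_E_Qb E
  have hgen : IntermediateField.adjoin ↥(laurentBaseChange E F₀)
      (Set.range (algebraMap Qb ↥(laurentBaseChange Qb F₀))) = ⊤ := by
    rw [eq_top_iff]
    rintro ⟨x, hx⟩ -
    have hx' := hx
    rw [laurentBaseChange] at hx'
    induction hx' using IntermediateField.adjoin_induction with
    | mem y hy =>
      obtain ⟨z, hz, rfl⟩ := hy
      have h1 : (⟨coeffEmb Qb z, hx⟩ : ↥(laurentBaseChange Qb F₀))
          = algebraMap ↥(laurentBaseChange E F₀) ↥(laurentBaseChange Qb F₀)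
            ⟨coeffEmb E z, coeffEmb_mem_laurentBaseChange E hz⟩ :=
        Subtype.ext (up_coeffEmb E z).symm
      rw [h1]
      exact IntermediateField.algebraMap_mem _ _
    | algebraMap c =>
      exact IntermediateField.subset_adjoin _ _ ⟨c, rfl⟩
    | add y z hy hz ihy ihz =>
      have h1 : (⟨y + z, hx⟩ : ↥(laurentBaseChange Qb F₀))
          = ⟨y, hy⟩ + ⟨z, hz⟩ := rfl
      rw [h1]
      exact add_mem (ihy hy) (ihz hz)
    | inv y hy ihy =>
      have h1 : (⟨y⁻¹, hx⟩ : ↥(laurentBaseChange Qb F₀)) = (⟨y, hy⟩)⁻¹ := rfl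
      rw [h1]
      exact inv_mem (ihy hy)
    | mul y z hy hz ihy ihz =>
      have h1 : (⟨y * z, hx⟩ : ↥(laurentBaseChange Qb F₀))
          = ⟨y, hy⟩ * ⟨z, hz⟩ := rfl
      rw [h1]
      exact mul_mem (ihy hy) (ihz hz)
  exact Fermat.Agent.Lib.PlaceExt.exists_place_above hgen P

/-- Literal form: orders of `up x` at the place above. -/
theorem exists_place_up' (P : Place E (laurentBaseChange E F₀)) :
    ∃ P' : Place Qb (laurentBaseChange Qb F₀),
      ∀ (x : LaurentSeries E) (hx : x ∈ laurentBaseChange E F₀)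
        (hx' : up E x ∈ laurentBaseChange Qb F₀),
        P'.ord (⟨up E x, hx'⟩ : ↥(laurentBaseChange Qb F₀)) = P.ord (⟨x, hx⟩ : ↥(laurentBaseChange E F₀)) := by
  obtain ⟨P', hP'⟩ := exists_place_up E F₀ P
  exact ⟨P', fun x hx hx' => hP' ⟨x, hx⟩⟩

/-- Divisibility of all orders descends from `Q̄`-places to `E`-places. -/
theorem dvd_ord_of_dvd_ord_up (p : ℤ) (x : LaurentSeries E) (hx : x ∈ laurentBaseChange E F₀)
    (h : ∀ P' : Place Qb (laurentBaseChange Qb F₀),
      p ∣ P'.ord (⟨up E x, up_mem E F₀ hx⟩ : ↥(laurentBaseChange Qb F₀)))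
    (P : Place E (laurentBaseChange E F₀)) :
    p ∣ P.ord (⟨x, hx⟩ : ↥(laurentBaseChange E F₀)) := by
  obtain ⟨P', hP'⟩ := exists_place_up' E F₀ P
  rw [← hP' x hx (up_mem E F₀ hx)]
  exact h P'

end Fermat.Agent.S18.PlaceUp
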