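import Mathlib
import Fermat.Prelude.Def_ModularCurve_ReductionModL
import Fermat.Agent.S24.FF.Principal
import Fermat.Agent.S24.FF.Residue
import Fermat.Agent.S24.Modular.M0

/-!
# S18, brick `Const`: constants of the residual function field, from the reduction hypothesis

Let `A` be a valuation subring of `ℚ̄` with residue field `k`, `Fb = ℚ̄(j(q^d))` and
`Fk = k(j(q^d))`.  Assume `ReductionInputsModL A N` (the hypothesis `h` of S18).  Then an element of
`Fk` without zeros and poles is a constant.

No function-field theory in characteristic `ℓ` is used: the proof transports "principal divisors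
have degree zero" from `Fb` (S24) through the degree-preserving place reduction `r`.
-/

set_option autoImplicit false

namespace Fermat.Agent.S18.ConstRed

open ModularCurve AlgebraicCurve IntermediateField

noncomputable section

variable {N : ℕ} [NeZero N]

/-- The function field of `X₀(N)` over `ℚ̄` has a place. -/
theorem nonempty_place :
    Nonempty (Place (AlgebraicClosure ℚ) ↥(modularFunctionFieldBar N)) := by
  by_contra hne
  rw [not_nonempty_iff] at hne
  have htr := Fermat.Agent.S24.Modular.trdeg_FN N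
  have hx := Fermat.Agent.S24.Modular.transcendental_jF N
  have h := Fermat.Agent.S24.FF.sum_ord_poles htr hx
  haveI hfin : Module.Finite (AlgebraicClosure ℚ)⟮Fermat.Agent.S24.Modular.jF N⟯
      ↥(modularFunctionFieldBar N) := Fermat.Agent.S24.FF.finite_adjoin_simple htr hx
  have hpos : 0 < Module.finrank (AlgebraicClosure ℚ)⟮Fermat.Agent.S24.Modular.jF N⟯
      ↥(modularFunctionFieldBar N) := Module.finrank_pos
  rw [finsum_of_isEmpty] at h
  have h2 : (0 : ℤ) < (Module.finrank (AlgebraicClosure ℚ)⟮Fermat.Agent.S24.Modular.jF N⟯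
      ↥(modularFunctionFieldBar N) : ℤ) := by exact_mod_cast hpos
  rw [← h] at h2
  exact lt_irrefl _ h2

section Series

variable {R S : Type*} [CommRing R] [CommRing S]

/-- `coeffMap` on constants. -/
theorem coeffMap_hC (f : R →+* S) (a : R) :
    coeffMap f (HahnSeries.C a : LaurentSeries R) = HahnSeries.C (f a) :=
  coeffMap_single f 0 a

theorem coeffMap_injective_of (f : R →+* S) (hf : Function.Injective f) :
    Function.Injective (coeffMap f) := by
  intro x y hxy
  ext k
  apply hf
  have := congrArg (fun z : LaurentSeries S => z.coeff k) hxy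
  simpa using this

end Series

section Degree

variable {K F : Type*} [Field K] [Field F] [Algebra K F]

/-- A divisor with nonnegative coefficients and a positive coefficient at a place of positive
degree has positive degree. -/
theorem degree_pos_of_nonneg (E : Divisor K F) (hE : ∀ Q, 0 ≤ E Q) (Q₀ : Place K F)
    (h₀ : 0 < E Q₀) (hd : 0 < Q₀.deg) : 0 < Divisor.degree E := by
  classical
  have h1 : Divisor.degree E = E.sum (fun v n => n * (v.deg : ℤ)) := by
    simp [Divisor.degree, Finsupp.liftAddHom_apply]
  rw [h1, Finsupp.sum]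
  have hmem : Q₀ ∈ E.support := by
    rw [Finsupp.mem_support_iff]
    omega
  have hle : E Q₀ * (Q₀.deg : ℤ) ≤ ∑ v ∈ E.support, E v * (v.deg : ℤ) :=
    Finset.single_le_sum (f := fun v => E v * (v.deg : ℤ))
      (fun v _ => mul_nonneg (hE v) (Int.natCast_nonneg _)) hmem
  have hpos : 0 < E Q₀ * (Q₀.deg : ℤ) := mul_pos h₀ (by exact_mod_cast hd)
  omega

end Degree

variable {A : ValuationSubring (AlgebraicClosure ℚ)}

/-- **Constants, lifted form.** If `U, W` are integral series in `Fb` whose reductions lie in `Fk`,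
are nonzero and have the same order at every place of `Fk`, then the reductions differ by a
constant factor. -/
theorem const_of_lift (h : ReductionInputsModL A N) (U W : LaurentSeries A)
    (hU : coeffMap A.subtype U ∈ modularFunctionFieldBar N)
    (hW : coeffMap A.subtype W ∈ modularFunctionFieldBar N)
    (hUk : coeffMap (IsLocalRing.residue A) U ∈
      modularFunctionFieldFullC (IsLocalRing.ResidueField A) N)
    (hWk : coeffMap (IsLocalRing.residue A) W ∈
      modularFunctionFieldFullC (IsLocalRing.ResidueField A) N)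
    (hU0 : coeffMap (IsLocalRing.residue A) U ≠ 0)
    (hW0 : coeffMap (IsLocalRing.residue A) W ≠ 0)
    (hord : ∀ Q : Place (IsLocalRing.ResidueField A)
        ↥(modularFunctionFieldFullC (IsLocalRing.ResidueField A) N),
      Q.ord (⟨coeffMap (IsLocalRing.residue A) U, hUk⟩ :
        ↥(modularFunctionFieldFullC (IsLocalRing.ResidueField A) N)) =
      Q.ord (⟨coeffMap (IsLocalRing.residue A) W, hWk⟩ :
        ↥(modularFunctionFieldFullC (IsLocalRing.ResidueField A) N))) :
    ∃ a : IsLocalRing.ResidueField A,
      coeffMap (IsLocalRing.residue A) U =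
        HahnSeries.C a * coeffMap (IsLocalRing.residue A) W := by
  classical
  obtain ⟨r, hr, -⟩ := h
  have htr := Fermat.Agent.S24.Modular.trdeg_FN N
  obtain ⟨P₀⟩ := nonempty_place (N := N)
  set Q₀ := r P₀ with hQ₀
  have hdeg₀ : Q₀.deg = 1 := by
    rw [hQ₀, hr.1 P₀]
    exact Fermat.Agent.S24.FF.deg_eq_one htr P₀
  -- the two reductions as elements of `Fk`
  set ub : ↥(modularFunctionFieldFullC (IsLocalRing.ResidueField A) N) :=
    ⟨coeffMap (IsLocalRing.residue A) U, hUk⟩ with hub
  set wb : ↥(modularFunctionFieldFullC (IsLocalRing.ResidueField A) N) :=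
    ⟨coeffMap (IsLocalRing.residue A) W, hWk⟩ with hwb
  have hub0 : ub ≠ 0 := fun h0 => hU0 (congrArg Subtype.val h0)
  have hwb0 : wb ≠ 0 := fun h0 => hW0 (congrArg Subtype.val h0)
  set c := ub / wb with hc
  have hc0 : c ≠ 0 := div_ne_zero hub0 hwb0
  have hcord : ∀ Q : Place (IsLocalRing.ResidueField A)
      ↥(modularFunctionFieldFullC (IsLocalRing.ResidueField A) N), Q.ord c = 0 := by
    intro Q
    rw [hc, div_eq_mul_inv, Q.ord_mul hub0 (inv_ne_zero hwb0), Q.ord_inv, hord Q]
    ring
  -- the residue of `c` at `Q₀` is a constant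
  have hcmem : c ∈ Q₀.toValuationSubring :=
    (Fermat.Agent.S24.FF.ord_nonneg_iff Q₀ hc0).mp (by rw [hcord Q₀])
  have hfr : Module.finrank (IsLocalRing.ResidueField A) Q₀.ResidueField = 1 := hdeg₀
  obtain ⟨a₀, ha₀⟩ := (finrank_eq_one_iff_of_nonzero' (1 : Q₀.ResidueField) one_ne_zero).mp hfr
    (IsLocalRing.residue Q₀.toValuationSubring ⟨c, hcmem⟩)
  have hmax : (⟨c, hcmem⟩ : Q₀.toValuationSubring) -
      algebraMap (IsLocalRing.ResidueField A) Q₀.toValuationSubring a₀ ∈
        IsLocalRing.maximalIdeal Q₀.toValuationSubring := by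
    rw [← IsLocalRing.residue_eq_zero_iff, map_sub, ← ha₀, Algebra.smul_def, mul_one,
      IsScalarTower.algebraMap_apply (IsLocalRing.ResidueField A) Q₀.toValuationSubring
        Q₀.ResidueField, IsLocalRing.ResidueField.algebraMap_eq, sub_self]
  obtain ⟨a, rfl⟩ := IsLocalRing.residue_surjective a₀
  refine ⟨IsLocalRing.residue A a, ?_⟩
  -- the integral series `y = U - a W`
  set y : LaurentSeries A := U - HahnSeries.C a * W with hy
  have hyb : coeffMap A.subtype y ∈ modularFunctionFieldBar N := by
    rw [hy, map_sub, map_mul, coeffMap_hC]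
    refine sub_mem hU (mul_mem ?_ hW)
    have := (modularFunctionFieldBar N).algebraMap_mem (A.subtype a)
    rwa [algebraMap_laurentSeries_eq_single] at this
  have hyk_eq : coeffMap (IsLocalRing.residue A) y =
      coeffMap (IsLocalRing.residue A) U -
        HahnSeries.C (IsLocalRing.residue A a) * coeffMap (IsLocalRing.residue A) W := by
    rw [hy, map_sub, map_mul, coeffMap_hC]
  have hCk : (HahnSeries.C (IsLocalRing.residue A a) : LaurentSeries (IsLocalRing.ResidueField A)) ∈
      modularFunctionFieldFullC (IsLocalRing.ResidueField A) N := by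
    have := (modularFunctionFieldFullC (IsLocalRing.ResidueField A) N).algebraMap_mem
      (IsLocalRing.residue A a)
    rwa [algebraMap_laurentSeries_eq_single] at this
  have hyk : coeffMap (IsLocalRing.residue A) y ∈
      modularFunctionFieldFullC (IsLocalRing.ResidueField A) N := by
    rw [hyk_eq]
    exact sub_mem hUk (mul_mem hCk hWk)
  by_contra hne
  have hyk0 : coeffMap (IsLocalRing.residue A) y ≠ 0 := by
    rw [hyk_eq]
    exact fun h0 => hne (sub_eq_zero.mp h0)
  -- nonvanishing over `ℚ̄`
  have hinj : Function.Injective (coeffMap A.subtype) :=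
    coeffMap_injective_of _ Subtype.val_injective
  have hy0 : (⟨coeffMap A.subtype y, hyb⟩ : ↥(modularFunctionFieldBar N)) ≠ 0 := by
    intro h0
    have h1 : coeffMap A.subtype y = 0 := congrArg Subtype.val h0
    have h2 : y = 0 := hinj (by rw [h1, map_zero])
    exact hyk0 (by rw [h2, map_zero])
  have hW0' : (⟨coeffMap A.subtype W, hW⟩ : ↥(modularFunctionFieldBar N)) ≠ 0 := by
    intro h0
    have h1 : coeffMap A.subtype W = 0 := congrArg Subtype.val h0
    have h2 : W = 0 := hinj (by rw [h1, map_zero])
    exact hW0 (by rw [h2, map_zero])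
  -- divisors over `ℚ̄`
  obtain ⟨D₁, hD₁⟩ := Fermat.Agent.S24.FF.exists_divisor_ord htr hy0
  obtain ⟨D₂, hD₂⟩ := Fermat.Agent.S24.FF.exists_divisor_ord htr hW0'
  have hdeg₁ := Fermat.Agent.S24.FF.degree_eq_zero_of_ord htr hy0 D₁ hD₁
  have hdeg₂ := Fermat.Agent.S24.FF.degree_eq_zero_of_ord htr hW0' D₂ hD₂
  have hR₁ := hr.2 y hyb hyk hyk0 D₁ hD₁
  have hR₂ := hr.2 W hW hWk hW0 D₂ hD₂
  -- the element `c - a` of `Fk`
  set yb : ↥(modularFunctionFieldFullC (IsLocalRing.ResidueField A) N) :=
    ⟨coeffMap (IsLocalRing.residue A) y, hyk⟩ with hyb'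
  have hyb0 : yb ≠ 0 := fun h0 => hyk0 (congrArg Subtype.val h0)
  have hrel : yb / wb = c - algebraMap (IsLocalRing.ResidueField A)
      ↥(modularFunctionFieldFullC (IsLocalRing.ResidueField A) N) (IsLocalRing.residue A a) := by
    have hyb_eq : yb = ub - algebraMap (IsLocalRing.ResidueField A)
        ↥(modularFunctionFieldFullC (IsLocalRing.ResidueField A) N) (IsLocalRing.residue A a)
          * wb := by
      apply Subtype.ext
      show coeffMap (IsLocalRing.residue A) y = _
      rw [hyk_eq]
      show _ = (ub : LaurentSeries (IsLocalRing.ResidueField A)) -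
        algebraMap (IsLocalRing.ResidueField A) (LaurentSeries (IsLocalRing.ResidueField A))
          (IsLocalRing.residue A a) * (wb : LaurentSeries (IsLocalRing.ResidueField A))
      rw [algebraMap_laurentSeries_eq_single]
      rfl
    rw [hyb_eq, hc, sub_div, mul_div_assoc, div_self hwb0, mul_one]
  have hcne : c - algebraMap (IsLocalRing.ResidueField A)
      ↥(modularFunctionFieldFullC (IsLocalRing.ResidueField A) N) (IsLocalRing.residue A a) ≠ 0 := by
    rw [← hrel]
    exact div_ne_zero hyb0 hwb0
  -- the divisor `E = r_* D₁ - r_* D₂` of `c - a`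
  set E : Divisor (IsLocalRing.ResidueField A)
      ↥(modularFunctionFieldFullC (IsLocalRing.ResidueField A) N) :=
    Finsupp.mapDomain r D₁ - Finsupp.mapDomain r D₂ with hE
  have hEQ : ∀ Q, E Q = Q.ord (c - algebraMap (IsLocalRing.ResidueField A)
      ↥(modularFunctionFieldFullC (IsLocalRing.ResidueField A) N) (IsLocalRing.residue A a)) := by
    intro Q
    rw [hE, Finsupp.sub_apply, hR₁ Q, hR₂ Q, ← hrel, div_eq_mul_inv,
      Q.ord_mul hyb0 (inv_ne_zero hwb0), Q.ord_inv]
    ring
  have hEnonneg : ∀ Q, 0 ≤ E Q := by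
    intro Q
    rw [hEQ Q]
    have h1 := Fermat.Agent.S24.FF.ord_sub_ge Q hcne
    rw [hcord Q, Fermat.Agent.S24.FF.ord_algebraMap Q, min_self] at h1
    exact h1
  have hEpos : 0 < E Q₀ := by
    rw [hEQ Q₀]
    have := (Fermat.Agent.S24.FF.mem_maximalIdeal_iff_ord_pos Q₀
      ((⟨c, hcmem⟩ : Q₀.toValuationSubring) -
        algebraMap (IsLocalRing.ResidueField A) Q₀.toValuationSubring (IsLocalRing.residue A a))
      hcne).mp hmax
    exact this
  have hEdeg : Divisor.degree E = 0 := by
    rw [hE, map_sub, degree_mapDomain_of_deg_eq hr.1, degree_mapDomain_of_deg_eq hr.1, hdeg₁,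
      hdeg₂, sub_zero]
  have := degree_pos_of_nonneg E hEnonneg Q₀ hEpos (by rw [hdeg₀]; exact Nat.one_pos)
  omega

omit [NeZero N] in
/-- The generators `j(q^d)`, `d ∣ N`, of `Fk` are reductions of integral series lying in `Fb`. -/
theorem gen_lift {d : ℕ} [NeZero d] (hd : d ∣ N) :
    coeffMap A.subtype (qExpand A d (jqModC A)) ∈ modularFunctionFieldBar N ∧
      coeffMap (IsLocalRing.residue A) (qExpand A d (jqModC A)) =
        qExpand (IsLocalRing.ResidueField A) d (jqModC (IsLocalRing.ResidueField A)) := by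
  refine ⟨?_, ?_⟩
  · have h1 : coeffMap A.subtype (qExpand A d (jqModC A)) =
        coeffEmb (AlgebraicClosure ℚ) (qExpand ℚ d jq) := by
      rw [coeffMap_qExpand, coeffMap_jqModC, coeffEmb, coeffMap_qExpand, ← jqModC_rat,
        coeffMap_jqModC]
    rw [h1]
    exact coeffEmb_mem_laurentBaseChange (AlgebraicClosure ℚ) (jqd_mem_full N hd)
  · rw [coeffMap_qExpand, coeffMap_jqModC]

omit [NeZero N] in
/-- Every element of the `k`-algebra generated by the `j(q^d)` is the reduction of an integral
series lying in `Fb`. -/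
theorem exists_lift_of_mem_adjoin (x : LaurentSeries (IsLocalRing.ResidueField A))
    (hx : x ∈ Algebra.adjoin (IsLocalRing.ResidueField A)
      (divisorExpansionsC (IsLocalRing.ResidueField A) N)) :
    ∃ U : LaurentSeries A, coeffMap A.subtype U ∈ modularFunctionFieldBar N ∧
      coeffMap (IsLocalRing.residue A) U = x := by
  induction hx using Algebra.adjoin_induction with
  | mem x hx =>
    obtain ⟨d, hne, hd, rfl⟩ := hx
    haveI := hne
    exact ⟨qExpand A d (jqModC A), (gen_lift (A := A) hd).1, (gen_lift (A := A) hd).2⟩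
  | algebraMap a₀ =>
    obtain ⟨a, rfl⟩ := IsLocalRing.residue_surjective a₀
    refine ⟨HahnSeries.C a, ?_, ?_⟩
    · rw [coeffMap_hC]
      have := (modularFunctionFieldBar N).algebraMap_mem (A.subtype a)
      rwa [algebraMap_laurentSeries_eq_single] at this
    · rw [coeffMap_hC, algebraMap_laurentSeries_eq_single]
      rfl
  | add x y _ _ hx hy =>
    obtain ⟨U, hU, rfl⟩ := hx
    obtain ⟨V, hV, rfl⟩ := hy
    exact ⟨U + V, by rw [map_add]; exact add_mem hU hV, map_add _ _ _⟩
  | mul x y _ _ hx hy =>
    obtain ⟨U, hU, rfl⟩ := hx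
    obtain ⟨V, hV, rfl⟩ := hy
    exact ⟨U * V, by rw [map_mul]; exact mul_mem hU hV, map_mul _ _ _⟩

omit [NeZero N] in
/-- Every element of `Fk` is a quotient of reductions of integral series lying in `Fb`. -/
theorem exists_lift_div (c : LaurentSeries (IsLocalRing.ResidueField A))
    (hc : c ∈ modularFunctionFieldFullC (IsLocalRing.ResidueField A) N) :
    ∃ U W : LaurentSeries A, coeffMap A.subtype U ∈ modularFunctionFieldBar N ∧
      coeffMap A.subtype W ∈ modularFunctionFieldBar N ∧
      coeffMap (IsLocalRing.residue A) U ∈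
        modularFunctionFieldFullC (IsLocalRing.ResidueField A) N ∧
      coeffMap (IsLocalRing.residue A) W ∈
        modularFunctionFieldFullC (IsLocalRing.ResidueField A) N ∧
      c = coeffMap (IsLocalRing.residue A) U / coeffMap (IsLocalRing.residue A) W := by
  rw [modularFunctionFieldFullC, IntermediateField.mem_adjoin_iff_div] at hc
  obtain ⟨x, hx, y, hy, rfl⟩ := hc
  obtain ⟨U, hU, rfl⟩ := exists_lift_of_mem_adjoin x hx
  obtain ⟨W, hW, rfl⟩ := exists_lift_of_mem_adjoin y hy
  refine ⟨U, W, hU, hW, ?_, ?_, rfl⟩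
  · exact IntermediateField.algebra_adjoin_le_adjoin _ _ hx
  · exact IntermediateField.algebra_adjoin_le_adjoin _ _ hy

/-- **Constants of the residual function field** (the interface `Const` of the S18 wiring), from
the reduction hypothesis: an element of `Fk` without zeros and poles is a constant. -/
theorem const_of_red (h : ReductionInputsModL A N)
    (c : ↥(modularFunctionFieldFullC (IsLocalRing.ResidueField A) N)) (hc0 : c ≠ 0)
    (hc : ∀ Q : Place (IsLocalRing.ResidueField A)
        ↥(modularFunctionFieldFullC (IsLocalRing.ResidueField A) N), Q.ord c = 0) :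
    ∃ a : IsLocalRing.ResidueField A,
      c = algebraMap (IsLocalRing.ResidueField A)
        ↥(modularFunctionFieldFullC (IsLocalRing.ResidueField A) N) a := by
  obtain ⟨U, W, hU, hW, hUk, hWk, hcUW⟩ := exists_lift_div (A := A) (c : LaurentSeries _) c.2
  have hW0 : coeffMap (IsLocalRing.residue A) W ≠ 0 := by
    intro h0
    apply hc0
    apply Subtype.ext
    rw [hcUW, h0, div_zero]
    rfl
  have hU0 : coeffMap (IsLocalRing.residue A) U ≠ 0 := by
    intro h0
    apply hc0
    apply Subtype.ext
    rw [hcUW, h0, zero_div]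
    rfl
  have hwb0 : (⟨coeffMap (IsLocalRing.residue A) W, hWk⟩ :
      ↥(modularFunctionFieldFullC (IsLocalRing.ResidueField A) N)) ≠ 0 :=
    fun h0 => hW0 (congrArg Subtype.val h0)
  have hub0 : (⟨coeffMap (IsLocalRing.residue A) U, hUk⟩ :
      ↥(modularFunctionFieldFullC (IsLocalRing.ResidueField A) N)) ≠ 0 :=
    fun h0 => hU0 (congrArg Subtype.val h0)
  have hceq : c = (⟨coeffMap (IsLocalRing.residue A) U, hUk⟩ :
      ↥(modularFunctionFieldFullC (IsLocalRing.ResidueField A) N)) /
        ⟨coeffMap (IsLocalRing.residue A) W, hWk⟩ := by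
    apply Subtype.ext
    rw [hcUW]
    rfl
  have hord : ∀ Q : Place (IsLocalRing.ResidueField A)
      ↥(modularFunctionFieldFullC (IsLocalRing.ResidueField A) N),
      Q.ord (⟨coeffMap (IsLocalRing.residue A) U, hUk⟩ :
        ↥(modularFunctionFieldFullC (IsLocalRing.ResidueField A) N)) =
      Q.ord (⟨coeffMap (IsLocalRing.residue A) W, hWk⟩ :
        ↥(modularFunctionFieldFullC (IsLocalRing.ResidueField A) N)) := by
    intro Q
    have h1 := hc Q
    rw [hceq, div_eq_mul_inv, Q.ord_mul hub0 (inv_ne_zero hwb0), Q.ord_inv] at h1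
    omega
  obtain ⟨a, ha⟩ := const_of_lift h U W hU hW hUk hWk hU0 hW0 hord
  refine ⟨a, ?_⟩
  apply Subtype.ext
  rw [hcUW, ha, mul_div_assoc, div_self hW0, mul_one]
  show HahnSeries.C a = algebraMap (IsLocalRing.ResidueField A)
    (LaurentSeries (IsLocalRing.ResidueField A)) a
  rw [algebraMap_laurentSeries_eq_single]
  rfl

end

end Fermat.Agent.S18.ConstRed
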