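import Fermat.Statements.S18
import Fermat.Agent.S18.Wiring
import Fermat.Agent.S18.ConstRed
import Fermat.Agent.S18.K1Defs
import Fermat.Agent.S18.K1Descent
import Fermat.Agent.S18.K1Final

/-!
# S18: the statement, assembled

`Result.main` is, verbatim, the frozen statement S18 (so that `Fermat/Agent/S18.lean` is the
template with body `Fermat.Agent.S18.Result.main N hℓN A hA h m hm z hmz hz`):
`Wiring.result_of_prime` (reduction to prime exponents `p ≠ ℓ`), `ConstRed.const_of_red`
(constants), `K1Descent.injAt_of_k1Modular` (descent from `ℚ̄` to number fields) and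
`K1Final.k1Modular` (the Model Theorem with its modular inputs).
-/

set_option autoImplicit false
open ModularCurve

namespace Fermat.Agent.S18.Result

theorem main (N : ℕ) [NeZero N] {ℓ : ℕ}
    [Fact ℓ.Prime] (hℓN : ¬ ℓ ∣ N) (A : ValuationSubring (AlgebraicClosure ℚ)) (hA : A.LiesOverPrime ℓ)
    (h : ModularCurve.ReductionInputsModL A N) (m : ℕ) (hm : ¬ ℓ ∣ m) (z : ModularCurve.JZero N)
    (hmz : m • z = 0) (hz : ModularCurve.reductionModL A N z = 0) :
    z = 0 :=
  Fermat.Agent.S18.Wiring.result_of_prime N A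
    (fun p hp hpℓ => Fermat.Agent.S18.K1Descent.injAt_of_k1Modular N A (Fact.out : ℓ.Prime) hA p
      (Fermat.Agent.S18.K1Final.k1Modular N hℓN A hA p hp hpℓ))
    (fun c hc0 hc => Fermat.Agent.S18.ConstRed.const_of_red h c hc0 hc) h m hm z hmz hz

end Fermat.Agent.S18.Result
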