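import Mathlib

/-!
# Zariski connectedness "by hand" (brick G6 of the S18 design)

Ring-theoretic form.  `B` is the ring of the overlap of two affine charts, `B1 B2 ≤ B` the rings
of the two charts, `p` a non-zero-divisor (the uniformiser), `A = B1 ⊓ B2` the ring of global
functions.  If `B / (B1 + B2)` (the first cohomology) has bounded `p`-power torsion and `A / p`
has only the idempotents `0, 1`, then every idempotent of
`ker (B1 / p × B2 / p → B / p)` (the global functions of the special fibre) is `0` or `1`.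
-/

namespace Fermat.Agent.S18.Conn

section Generic

variable {R : Type*} [CommRing R]

/-- Newton step for idempotents: `x ↦ x + (1 - 2x)(x² - x)` squares the defect. -/
theorem lift_step (x : R) :
    (x + (1 - 2 * x) * (x * x - x)) * (x + (1 - 2 * x) * (x * x - x))
        - (x + (1 - 2 * x) * (x * x - x))
      = (x * x - x) ^ 2 * (4 * (x * x - x) - 3) := by
  ring

/-- An idempotent modulo `p` lifts to an idempotent modulo `p ^ (n + 1)`. -/
theorem exists_lift (p e : R) (h : ∃ u, e * e - e = p * u) (n : ℕ) :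
    ∃ e' : R, (∃ u, e' - e = p * u) ∧ (∃ u, e' * e' - e' = p ^ (n + 1) * u) := by
  induction n with
  | zero => exact ⟨e, ⟨0, by ring⟩, by simpa using h⟩
  | succ n ih =>
    obtain ⟨e', ⟨u, hu⟩, ⟨w, hw⟩⟩ := ih
    refine ⟨e' + (1 - 2 * e') * (e' * e' - e'),
      ⟨u + (1 - 2 * e') * (p ^ n * w), ?_⟩,
      ⟨p ^ n * w ^ 2 * (4 * (e' * e' - e') - 3), ?_⟩⟩
    · have : e' + (1 - 2 * e') * (e' * e' - e') - e
          = (e' - e) + (1 - 2 * e') * (e' * e' - e') := by ring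
      rw [this, hu, hw]; ring
    · rw [lift_step, hw]; ring

/-- Two idempotents modulo `p ^ n` which agree modulo `p` agree modulo `p ^ n`. -/
theorem sub_eq_of_idem (p e f : R) (n : ℕ) (he : ∃ u, e * e - e = p ^ n * u)
    (hf : ∃ u, f * f - f = p ^ n * u) (hd : ∃ w, e - f = p * w) :
    ∃ y, e - f = p ^ n * y := by
  obtain ⟨ua, hua⟩ := he
  obtain ⟨ub, hub⟩ := hf
  obtain ⟨w, hw⟩ := hd
  have h3 : (e - f) ^ 3 - (e - f)
      = p ^ n * (ua * (1 + e - 3 * f) + ub * (3 * e - 1 - f)) := by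
    have : (e - f) ^ 3 - (e - f)
        = (e * e - e) * (1 + e - 3 * f) + (f * f - f) * (3 * e - 1 - f) := by ring
    rw [this, hua, hub]; ring
  have key : ∀ k : ℕ, ∃ y, e - f = (e - f) ^ (2 * k + 1) + p ^ n * y := by
    intro k
    induction k with
    | zero => exact ⟨0, by ring⟩
    | succ k ih =>
      obtain ⟨y, hy⟩ := ih
      refine ⟨y - (e - f) ^ (2 * k) * (ua * (1 + e - 3 * f) + ub * (3 * e - 1 - f)), ?_⟩
      have e1 : (e - f) ^ (2 * (k + 1) + 1)
          = (e - f) ^ (2 * k) * ((e - f) ^ 3 - (e - f)) + (e - f) ^ (2 * k + 1) := by ring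
      rw [e1, h3]
      calc e - f = (e - f) ^ (2 * k + 1) + p ^ n * y := hy
        _ = _ := by ring
  obtain ⟨y, hy⟩ := key n
  refine ⟨p ^ (n + 1) * w ^ (2 * n + 1) + y, ?_⟩
  have e2 : (e - f) ^ (2 * n + 1) = p ^ n * (p ^ (n + 1) * w ^ (2 * n + 1)) := by
    rw [hw]; ring
  calc e - f = (e - f) ^ (2 * n + 1) + p ^ n * y := hy
    _ = _ := by rw [e2]; ring

end Generic

section Main

variable {B : Type*} [CommRing B]

/-- **Zariski connectedness by hand.**  `B1, B2` the two charts inside the overlap ring `B`,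
`p` a non-zero-divisor lying in both.  If `B / (B1 + B2)` has bounded `p`-power torsion and
`(B1 ⊓ B2) / p` has only trivial idempotents, then an idempotent of
`ker (B1 / p × B2 / p → B / p)` is `0` or `1`. -/
theorem idem_trivial (B1 B2 : Subring B) (p : B) (hp1 : p ∈ B1) (hp2 : p ∈ B2)
    (hreg : ∀ x : B, p * x = 0 → x = 0)
    (htors : ∃ c : ℕ, ∀ y : B, (∃ n : ℕ, ∃ b1 ∈ B1, ∃ b2 ∈ B2, p ^ n * y = b1 + b2) →
      ∃ b1 ∈ B1, ∃ b2 ∈ B2, p ^ c * y = b1 + b2)
    (hA : ∀ a ∈ B1 ⊓ B2, (∃ u ∈ B1 ⊓ B2, a * a - a = p * u) →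
      (∃ u ∈ B1 ⊓ B2, a = p * u) ∨ (∃ u ∈ B1 ⊓ B2, a - 1 = p * u))
    (e1 : B) (he1 : e1 ∈ B1) (e2 : B) (he2 : e2 ∈ B2)
    (h1 : ∃ u ∈ B1, e1 * e1 - e1 = p * u) (h2 : ∃ u ∈ B2, e2 * e2 - e2 = p * u)
    (h12 : ∃ u : B, e1 - e2 = p * u) :
    ((∃ u ∈ B1, e1 = p * u) ∧ (∃ u ∈ B2, e2 = p * u)) ∨
      ((∃ u ∈ B1, e1 - 1 = p * u) ∧ (∃ u ∈ B2, e2 - 1 = p * u)) := by
  obtain ⟨c, hc⟩ := htors
  -- lift the idempotents modulo `p ^ (c + 1)` inside each chart
  obtain ⟨u1, hu1, hu1'⟩ := h1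
  obtain ⟨u2, hu2, hu2'⟩ := h2
  have L1 := exists_lift (R := B1) ⟨p, hp1⟩ ⟨e1, he1⟩
    ⟨⟨u1, hu1⟩, Subtype.ext (by simpa using hu1')⟩ c
  have L2 := exists_lift (R := B2) ⟨p, hp2⟩ ⟨e2, he2⟩
    ⟨⟨u2, hu2⟩, Subtype.ext (by simpa using hu2')⟩ c
  obtain ⟨⟨f1, hf1⟩, ⟨⟨v1, hv1⟩, hv1'⟩, ⟨⟨w1, hw1⟩, hw1'⟩⟩ := L1
  obtain ⟨⟨f2, hf2⟩, ⟨⟨v2, hv2⟩, hv2'⟩, ⟨⟨w2, hw2⟩, hw2'⟩⟩ := L2
  have hv1'' : f1 - e1 = p * v1 := by simpa using congrArg Subtype.val hv1'
  have hv2'' : f2 - e2 = p * v2 := by simpa using congrArg Subtype.val hv2'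
  have hw1'' : f1 * f1 - f1 = p ^ (c + 1) * w1 := by simpa using congrArg Subtype.val hw1'
  have hw2'' : f2 * f2 - f2 = p ^ (c + 1) * w2 := by simpa using congrArg Subtype.val hw2'
  obtain ⟨u12, hu12⟩ := h12
  -- the two lifts agree modulo `p ^ (c + 1)` in the overlap
  obtain ⟨y, hy⟩ := sub_eq_of_idem p f1 f2 (c + 1) ⟨w1, hw1''⟩ ⟨w2, hw2''⟩
    ⟨v1 + u12 - v2, by
      have : f1 - f2 = (f1 - e1) + (e1 - e2) - (f2 - e2) := by ring
      rw [this, hv1'', hv2'', hu12]; ring⟩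
  -- the obstruction class is torsion, hence killed by `p ^ c`
  obtain ⟨b1, hb1, b2, hb2, hb⟩ := hc y ⟨c + 1, f1, hf1, -f2, B2.neg_mem hf2, by
    rw [← hy]; ring⟩
  -- a global function `a` reducing to the idempotent
  have ha : f1 - p * b1 = f2 + p * b2 := by
    have : f1 - f2 = p * (p ^ c * y) := by rw [hy]; ring
    rw [hb] at this
    have h' : f1 - p * b1 - (f2 + p * b2) = (f1 - f2) - p * (b1 + b2) := by ring
    have : f1 - p * b1 - (f2 + p * b2) = 0 := by rw [h', this]; ring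
    exact sub_eq_zero.mp this
  set a : B := f1 - p * b1 with ha_def
  have ha1 : a ∈ B1 := B1.sub_mem hf1 (B1.mul_mem hp1 hb1)
  have ha2 : a ∈ B2 := by
    rw [ha]; exact B2.add_mem hf2 (B2.mul_mem hp2 hb2)
  -- `a = e1 + p * t1 = e2 + p * t2`
  have hae1 : a = e1 + p * (v1 - b1) := by
    have : a = (f1 - e1) + e1 - p * b1 := by rw [ha_def]; ring
    rw [this, hv1'']; ring
  have hae2 : a = e2 + p * (v2 + b2) := by
    have : a = (f2 - e2) + e2 + p * b2 := by rw [ha]; ring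
    rw [this, hv2'']; ring
  have ht1 : v1 - b1 ∈ B1 := B1.sub_mem hv1 hb1
  have ht2 : v2 + b2 ∈ B2 := B2.add_mem hv2 hb2
  -- `a` is idempotent modulo `p` in `B1 ⊓ B2`
  have hq1 : a * a - a = p * (u1 + (v1 - b1) * (2 * e1 + p * (v1 - b1) - 1)) := by
    have : a * a - a = (e1 * e1 - e1) + p * ((v1 - b1) * (2 * e1 + p * (v1 - b1) - 1)) := by
      rw [hae1]; ring
    rw [this, hu1']; ring
  have hq2 : a * a - a = p * (u2 + (v2 + b2) * (2 * e2 + p * (v2 + b2) - 1)) := by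
    have : a * a - a = (e2 * e2 - e2) + p * ((v2 + b2) * (2 * e2 + p * (v2 + b2) - 1)) := by
      rw [hae2]; ring
    rw [this, hu2']; ring
  have hq1mem : u1 + (v1 - b1) * (2 * e1 + p * (v1 - b1) - 1) ∈ B1 :=
    B1.add_mem hu1 (B1.mul_mem ht1 (B1.sub_mem (B1.add_mem
      (B1.mul_mem (ofNat_mem B1 2) he1) (B1.mul_mem hp1 ht1)) B1.one_mem))
  have hq2mem : u2 + (v2 + b2) * (2 * e2 + p * (v2 + b2) - 1) ∈ B2 :=
    B2.add_mem hu2 (B2.mul_mem ht2 (B2.sub_mem (B2.add_mem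
      (B2.mul_mem (ofNat_mem B2 2) he2) (B2.mul_mem hp2 ht2)) B2.one_mem))
  have hqeq : u1 + (v1 - b1) * (2 * e1 + p * (v1 - b1) - 1)
      = u2 + (v2 + b2) * (2 * e2 + p * (v2 + b2) - 1) := by
    have : p * (u1 + (v1 - b1) * (2 * e1 + p * (v1 - b1) - 1)
        - (u2 + (v2 + b2) * (2 * e2 + p * (v2 + b2) - 1))) = 0 := by
      rw [mul_sub, ← hq1, ← hq2, sub_self]
    exact sub_eq_zero.mp (hreg _ this)
  have hamem : a ∈ B1 ⊓ B2 := ⟨ha1, ha2⟩
  have hidem : ∃ u ∈ B1 ⊓ B2, a * a - a = p * u :=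
    ⟨_, ⟨hq1mem, by rw [hqeq]; exact hq2mem⟩, hq1⟩
  rcases hA a hamem hidem with ⟨u, ⟨hu_1, hu_2⟩, hu⟩ | ⟨u, ⟨hu_1, hu_2⟩, hu⟩
  · left
    refine ⟨⟨u - (v1 - b1), B1.sub_mem hu_1 ht1, ?_⟩, ⟨u - (v2 + b2), B2.sub_mem hu_2 ht2, ?_⟩⟩
    · have : e1 = a - p * (v1 - b1) := by rw [hae1]; ring
      rw [this, hu]; ring
    · have : e2 = a - p * (v2 + b2) := by rw [hae2]; ring
      rw [this, hu]; ring
  · right
    refine ⟨⟨u - (v1 - b1), B1.sub_mem hu_1 ht1, ?_⟩, ⟨u - (v2 + b2), B2.sub_mem hu_2 ht2, ?_⟩⟩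
    · have : e1 - 1 = (a - 1) - p * (v1 - b1) := by rw [hae1]; ring
      rw [this, hu]; ring
    · have : e2 - 1 = (a - 1) - p * (v2 + b2) := by rw [hae2]; ring
      rw [this, hu]; ring

end Main

section Torsion

/-- In a finitely generated module over a Noetherian ring the `p`-power torsion is bounded. -/
theorem bounded_torsion {A M : Type*} [CommRing A] [IsNoetherianRing A] [AddCommGroup M]
    [Module A M] [Module.Finite A M] (p : A) :
    ∃ c : ℕ, ∀ m : M, (∃ n : ℕ, p ^ n • m = 0) → p ^ c • m = 0 := by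
  have hN : IsNoetherian A M := inferInstance
  let f : ℕ →o Submodule A M :=
    { toFun := fun n => LinearMap.ker ((p ^ n) • (LinearMap.id : M →ₗ[A] M))
      monotone' := by
        intro a b hab m hm
        rw [LinearMap.mem_ker] at hm ⊢
        simp only [LinearMap.smul_apply, LinearMap.id_coe, id_eq] at hm ⊢
        obtain ⟨k, rfl⟩ := Nat.exists_eq_add_of_le hab
        rw [pow_add, mul_comm, mul_smul, hm, smul_zero] }
  obtain ⟨c, hc⟩ := monotone_stabilizes_iff_noetherian.mpr hN f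
  refine ⟨c, fun m ⟨n, hn⟩ => ?_⟩
  rcases le_total c n with h | h
  · have : m ∈ f n := by
      change m ∈ LinearMap.ker ((p ^ n) • (LinearMap.id : M →ₗ[A] M))
      rw [LinearMap.mem_ker]; simpa using hn
    rw [← hc n h] at this
    change m ∈ LinearMap.ker ((p ^ c) • (LinearMap.id : M →ₗ[A] M)) at this
    rw [LinearMap.mem_ker] at this; simpa using this
  · obtain ⟨k, rfl⟩ := Nat.exists_eq_add_of_le h
    rw [pow_add, mul_comm, mul_smul, hn, smul_zero]

/-- The hypothesis `htors` of `idem_trivial` from finite generation of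
`B / (B1 + B2)` over a Noetherian base ring. -/
theorem htors_of_finite {A B : Type*} [CommRing A] [IsNoetherianRing A] [CommRing B]
    [Algebra A B] (B1 B2 : Subalgebra A B) (π : A)
    [Module.Finite A (B ⧸ (Subalgebra.toSubmodule B1 ⊔ Subalgebra.toSubmodule B2))] :
    ∃ c : ℕ, ∀ y : B,
      (∃ n : ℕ, ∃ b1 ∈ B1.toSubring, ∃ b2 ∈ B2.toSubring,
        (algebraMap A B π) ^ n * y = b1 + b2) →
      ∃ b1 ∈ B1.toSubring, ∃ b2 ∈ B2.toSubring, (algebraMap A B π) ^ c * y = b1 + b2 := by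
  obtain ⟨c, hc⟩ := bounded_torsion
    (M := B ⧸ (Subalgebra.toSubmodule B1 ⊔ Subalgebra.toSubmodule B2)) π
  refine ⟨c, fun y ⟨n, b1, hb1, b2, hb2, h⟩ => ?_⟩
  have key : ∀ k : ℕ, (algebraMap A B π) ^ k * y = π ^ k • y := by
    intro k; rw [Algebra.smul_def, map_pow]
  have h0 : π ^ n • (Submodule.Quotient.mk y :
      B ⧸ (Subalgebra.toSubmodule B1 ⊔ Subalgebra.toSubmodule B2)) = 0 := by
    rw [← Submodule.Quotient.mk_smul, Submodule.Quotient.mk_eq_zero, ← key, h]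
    exact Submodule.add_mem_sup hb1 hb2
  have h1 := hc _ ⟨n, h0⟩
  rw [← Submodule.Quotient.mk_smul, Submodule.Quotient.mk_eq_zero, ← key] at h1
  obtain ⟨b1', hb1', b2', hb2', hsum⟩ := Submodule.mem_sup.mp h1
  exact ⟨b1', hb1', b2', hb2', hsum.symm⟩

end Torsion

section Finite

open Polynomial in
/-- Finite generation of `H¹ = B / (B1 + B2)` for a two-chart cover of a "curve over `A`":
`B = B1[1/t]`, `B1` is spanned over `A[t]` by a finite set `s`, and `t⁻ᵏ⁰ b ∈ B2` for `b ∈ s`.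
Then `H¹` is spanned over `A` by the classes of `t⁻ˡ b`, `l < k0`, `b ∈ s`. -/
theorem quotient_finite {A B : Type*} [CommRing A] [CommRing B] [Algebra A B]
    (B1 B2 : Subalgebra A B) (t tinv : B) (ht : t * tinv = 1) (ht1 : t ∈ B1) (ht2 : tinv ∈ B2)
    (s : Finset B) (hsB1 : ∀ b ∈ s, b ∈ B1)
    (hs : ∀ x ∈ B1, x ∈ Submodule.span (Algebra.adjoin A {t}) (s : Set B))
    (hloc : ∀ y : B, ∃ m : ℕ, t ^ m * y ∈ B1) (k0 : ℕ) (hk : ∀ b ∈ s, tinv ^ k0 * b ∈ B2) :
    Module.Finite A (B ⧸ (Subalgebra.toSubmodule B1 ⊔ Subalgebra.toSubmodule B2)) := by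
  classical
  set W : Submodule A B := Subalgebra.toSubmodule B1 ⊔ Subalgebra.toSubmodule B2 with hW
  let G : Finset (B ⧸ W) :=
    (Finset.range k0 ×ˢ s).image (fun lb => Submodule.Quotient.mk (tinv ^ lb.1 * lb.2))
  have hpow : ∀ i : ℕ, t ^ i * tinv ^ i = 1 := fun i => by rw [← mul_pow, ht, one_pow]
  have mk_zero1 : ∀ x ∈ B1, (Submodule.Quotient.mk x : B ⧸ W) = 0 := fun x hx => by
    rw [Submodule.Quotient.mk_eq_zero]; exact Submodule.mem_sup_left hx
  have mk_zero2 : ∀ x ∈ B2, (Submodule.Quotient.mk x : B ⧸ W) = 0 := fun x hx => by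
    rw [Submodule.Quotient.mk_eq_zero]; exact Submodule.mem_sup_right hx
  -- Step 1: monomials
  have step1 : ∀ b ∈ s, ∀ i j : ℕ,
      (Submodule.Quotient.mk (t ^ j * tinv ^ i * b) : B ⧸ W) ∈ Submodule.span A (G : Set (B ⧸ W)) := by
    intro b hb i j
    rcases le_or_gt i j with hij | hij
    · obtain ⟨d, rfl⟩ := Nat.exists_eq_add_of_le hij
      have : t ^ (i + d) * tinv ^ i * b = t ^ d * b := by
        rw [pow_add, mul_comm (t ^ i), mul_assoc (t ^ d), hpow, mul_one]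
      rw [this, mk_zero1 _ (B1.mul_mem (B1.pow_mem ht1 d) (hsB1 b hb))]
      exact Submodule.zero_mem _
    · obtain ⟨d, rfl⟩ := Nat.exists_eq_add_of_le hij.le
      have h1 : t ^ j * tinv ^ (j + d) * b = tinv ^ d * b := by
        rw [pow_add, ← mul_assoc, hpow, one_mul]
      rw [h1]
      rcases lt_or_ge d k0 with hd | hd
      · apply Submodule.subset_span
        simp only [G, Finset.coe_image, Set.mem_image, Finset.mem_coe, Finset.mem_product,
          Finset.mem_range]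
        exact ⟨(d, b), ⟨hd, hb⟩, rfl⟩
      · obtain ⟨d', rfl⟩ := Nat.exists_eq_add_of_le hd
        have h2 : tinv ^ (k0 + d') * b = tinv ^ d' * (tinv ^ k0 * b) := by
          rw [pow_add]; ring
        rw [h2, mk_zero2 _ (B2.mul_mem (B2.pow_mem ht2 d') (hk b hb))]
        exact Submodule.zero_mem _
  -- Step 2: polynomial coefficients
  have step2 : ∀ (P : A[X]) (b : B), b ∈ s → ∀ m : ℕ,
      (Submodule.Quotient.mk (tinv ^ m * (aeval t P * b)) : B ⧸ W)
        ∈ Submodule.span A (G : Set (B ⧸ W)) := by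
    intro P b hb m
    rw [aeval_eq_sum_range, Finset.sum_mul, Finset.mul_sum]
    have : (Submodule.Quotient.mk (∑ i ∈ Finset.range (P.natDegree + 1),
        tinv ^ m * (P.coeff i • t ^ i * b)) : B ⧸ W)
        = ∑ i ∈ Finset.range (P.natDegree + 1),
          P.coeff i • (Submodule.Quotient.mk (t ^ i * tinv ^ m * b) : B ⧸ W) := by
      rw [← Submodule.mkQ_apply, map_sum]
      refine Finset.sum_congr rfl fun i _ => ?_
      rw [Submodule.mkQ_apply, ← Submodule.Quotient.mk_smul]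
      congr 1
      rw [Algebra.smul_def, Algebra.smul_def]; ring
    rw [this]
    exact Submodule.sum_mem _ fun i _ => Submodule.smul_mem _ _ (step1 b hb m i)
  -- Step 3: elements of `B1`, multiplied by `tinv ^ m`
  have step3 : ∀ x ∈ B1, ∀ m : ℕ,
      (Submodule.Quotient.mk (tinv ^ m * x) : B ⧸ W) ∈ Submodule.span A (G : Set (B ⧸ W)) := by
    intro x hx m
    obtain ⟨f, -, rfl⟩ := Submodule.mem_span_finset.mp (hs x hx)
    rw [Finset.mul_sum]
    have : (Submodule.Quotient.mk (∑ b ∈ s, tinv ^ m * (f b • b)) : B ⧸ W)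
        = ∑ b ∈ s, (Submodule.Quotient.mk (tinv ^ m * (f b • b)) : B ⧸ W) := by
      rw [← Submodule.mkQ_apply, map_sum]; rfl
    rw [this]
    refine Submodule.sum_mem _ fun b hb => ?_
    have hmem : ((f b : Algebra.adjoin A {t}) : B) ∈ (Polynomial.aeval t : A[X] →ₐ[A] B).range := by
      rw [← Algebra.adjoin_singleton_eq_range_aeval]; exact (f b).2
    obtain ⟨P, hP⟩ := hmem
    have hP' : aeval t P = ((f b : Algebra.adjoin A {t}) : B) := hP
    have : f b • b = aeval t P * b := by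
      rw [hP']; rfl
    rw [this]
    exact step2 P b hb m
  refine ⟨⟨G, ?_⟩⟩
  rw [eq_top_iff]
  rintro q -
  obtain ⟨y, rfl⟩ := Submodule.Quotient.mk_surjective _ q
  obtain ⟨m, hm⟩ := hloc y
  have : y = tinv ^ m * (t ^ m * y) := by
    rw [← mul_assoc, mul_comm (tinv ^ m), hpow, one_mul]
  rw [this]
  exact step3 _ hm m

end Finite

end Fermat.Agent.S18.Conn
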