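import Mathlib
import Fermat.Prelude.Def_ModularCurve_ReductionModL
import Fermat.Agent.Lib.PlaceRes
import Fermat.Agent.S30.GaussDVR
import Fermat.Agent.S18.K1Defs

/-!
# S18 / Program E: descent of `(K1E)` along a finite extension of degree prime to `p`

If `L ≤ L⁺` are subfields of `E((q))` with `[L⁺ : L]` finite and prime to `p`, then
`K1E O E L⁺ p → K1E O E L p` (norm argument).  This is the descent from the auxiliary level
(`ℓ = 2, 3`) to level `N`.
-/

set_option autoImplicit false
set_option linter.unusedSectionVars false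

noncomputable section

namespace Fermat.Agent.S18.K1Norm

open ModularCurve AlgebraicCurve
open Fermat.Agent.S18.K1Defs
open Fermat.Agent.S30

/-- **Norm descent.** If `g ∈ L` becomes a constant times a `p`-th power in a finite extension
`M` of degree prime to `p`, then it is a constant times a `p`-th power in `L`. -/
theorem exists_const_mul_pow_of_coprime {E L M : Type*} [Field E] [Field L] [Field M]
    [Algebra E L] [Algebra L M] [Algebra E M] [IsScalarTower E L M] [FiniteDimensional L M]
    (p : ℕ) (hcop : (Module.finrank L M).Coprime p) (g : L) (hg : g ≠ 0) (c : E) (w : M)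
    (h : algebraMap L M g = algebraMap E M c * w ^ p) :
    ∃ (c' : E) (H : L), g = algebraMap E L c' * H ^ p := by
  set d := Module.finrank L M with hd
  -- take norms
  have hN : g ^ d = algebraMap E L c ^ d * Algebra.norm L w ^ p := by
    have h1 := congrArg (Algebra.norm L) h
    rw [Algebra.norm_algebraMap, IsScalarTower.algebraMap_apply E L M, map_mul,
      Algebra.norm_algebraMap, map_pow] at h1
    exact h1
  -- Bézout
  have hcop' : IsCoprime (d : ℤ) (p : ℤ) := Nat.isCoprime_iff_coprime.mpr hcop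
  obtain ⟨a, b, hab⟩ := hcop'
  refine ⟨c ^ (d * a), Algebra.norm L w ^ a * g ^ b, ?_⟩
  have h2 : g = g ^ (a * (d : ℤ) + b * (p : ℤ)) := by rw [hab, zpow_one]
  have h3 : g ^ (a * (d : ℤ)) = (algebraMap E L c ^ d * Algebra.norm L w ^ p) ^ a := by
    rw [← hN, ← zpow_natCast, ← zpow_mul, mul_comm]
  have h4 : g ^ (b * (p : ℤ)) = (g ^ b) ^ p := by
    rw [← zpow_natCast (g ^ b) p, ← zpow_mul]
  have h5 : (algebraMap E L c ^ d * Algebra.norm L w ^ p) ^ a =
      algebraMap E L (c ^ (d * a)) * (Algebra.norm L w ^ a) ^ p := by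
    rw [mul_zpow, map_zpow₀, zpow_mul, zpow_natCast, ← zpow_natCast (Algebra.norm L w) p,
      ← zpow_mul, ← zpow_natCast (Algebra.norm L w ^ a) p, ← zpow_mul, mul_comm (p : ℤ) a]
  calc g = g ^ (a * (d : ℤ)) * g ^ (b * (p : ℤ)) := by
        rw [← zpow_add₀ hg]; exact h2
    _ = algebraMap E L (c ^ (d * a)) * (Algebra.norm L w ^ a) ^ p * (g ^ b) ^ p := by
        rw [h3, h4, h5]
    _ = algebraMap E L (c ^ (d * a)) * (Algebra.norm L w ^ a * g ^ b) ^ p := by
        rw [mul_pow, mul_assoc]

section K1E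

variable {O E : Type*} [CommRing O] [IsDomain O] [IsDiscreteValuationRing O] [Field E]
  [Algebra O E] [FaithfulSMul O E]

/-- **Descent of `(K1E)`** from `L⁺` to a subfield `L` over which `L⁺` is finite of degree prime
to `p`.  The `L`-algebra structure on `L⁺` is a parameter, required to be the inclusion. -/
theorem k1E_of_le {L L' : IntermediateField E (LaurentSeries E)} (hLL : L ≤ L')
    [Algebra L L'] (hincl : ∀ x : L, ((algebraMap L L' x : L') : LaurentSeries E) = x)
    [FiniteDimensional L L'] (p : ℕ) (hcop : (Module.finrank L L').Coprime p)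
    (hK : K1E O E L' p) : K1E O E L p := by
  intro g hgL hgV hg1 hdiv
  have hst : IsScalarTower E L L' := by
    refine IsScalarTower.of_algebraMap_eq fun c => ?_
    apply Subtype.ext
    rw [hincl]
    rfl
  have hgL' : g ∈ L' := hLL hgL
  have hgeq : (⟨g, hgL'⟩ : L') = algebraMap L L' ⟨g, hgL⟩ := Subtype.ext (hincl ⟨g, hgL⟩).symm
  -- places of `L'` restrict to places of `L`
  have hdiv' : ∀ Q : Place E L', (p : ℤ) ∣ Q.ord (⟨g, hgL'⟩ : L') := by
    intro Q
    obtain ⟨P, e, -, hP⟩ := Fermat.Agent.Lib.PlaceRes.exists_place_below (K := E) (L := L)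
      (M := L') Q
    rw [hgeq, hP]
    exact Dvd.dvd.mul_left (hdiv P) _
  obtain ⟨c, H, hHL', hgH⟩ := hK g hgL' hgV hg1 hdiv'
  have hg0 : (⟨g, hgL⟩ : L) ≠ 0 := by
    intro h0
    have h1 : g = 0 := congrArg Subtype.val h0
    have h2 : (⟨g, hgV⟩ : GaussDVR.V O E) = 0 := Subtype.ext h1
    rw [h2, map_zero] at hg1
    exact zero_ne_one hg1
  have hrel : algebraMap L L' (⟨g, hgL⟩ : L) = algebraMap E L' c * (⟨H, hHL'⟩ : L') ^ p := by
    apply Subtype.ext
    rw [hincl]
    show g = algebraMap E (LaurentSeries E) c * H ^ p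
    rw [hgH, Fermat.Agent.S18.Wiring.C_eq_algebraMap]
  obtain ⟨c', H', hH'⟩ := exists_const_mul_pow_of_coprime (E := E) (L := L) (M := L') p hcop
    ⟨g, hgL⟩ hg0 c ⟨H, hHL'⟩ hrel
  refine ⟨c', (H' : LaurentSeries E), H'.2, ?_⟩
  have h2 : g = algebraMap E (LaurentSeries E) c' * (H' : LaurentSeries E) ^ p :=
    congrArg (Subtype.val : L → LaurentSeries E) hH'
  rw [Fermat.Agent.S18.Wiring.C_eq_algebraMap]
  exact h2

end K1E

end Fermat.Agent.S18.K1Norm
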